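import Fermat.Agent.DR.Mod.GaussPoly
import Fermat.Agent.DR.Mod.Kronecker
import Fermat.Agent.JRED.ESFinal
import Fermat.Agent.JRED.AtkinLehnerInput

set_option autoImplicit false
set_option linter.unusedSectionVars false
set_option linter.style.haveILetI false

/-!
# The norm `N_α(β(1 + c h))` for `c` in the maximal ideal

`N_α(β(1 + c h)) = 1 + c g` with `res g = (res h)(q^ℓ) = (φ⁻¹ res h)^ℓ`.
-/

noncomputable section

open AlgebraicCurve ModularCurve
open Fermat.Agent.JRED Fermat.Agent.JRED.ES Fermat.Agent.S28 Fermat.Agent.DR.Mod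
open Fermat.Agent.Jan.HeckeNorm Fermat.Agent.Jan.HeckeInputs

namespace Fermat.Agent.Mazur.Ord

section Product

variable {R k : Type*} [CommRing R] [Field k] {ℓ : ℕ} [NeZero ℓ]

/-- `∏_{i<n} (b(ζ^i t) + c a(ζ^i t)) = ∏ b(ζ^i t) + c X`, `b̄ X̄ = n ā b̄^n`. -/
theorem exists_prod_eq (π : R →+* k) {ζ : Rˣ} (hζ1 : ∀ i : ℕ, π (ζ ^ i : Rˣ) = 1) {c : R}
    (hc : π c = 0) (a b : LaurentSeries R) (n : ℕ) :
    ∃ X : LaurentSeries R,
      ∏ i ∈ Finset.range n, twist (ζ ^ i) (b + HahnSeries.C c * a) =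
        ∏ i ∈ Finset.range n, twist (ζ ^ i) b + HahnSeries.C c * X ∧
      coeffMap π b * coeffMap π X = (n : LaurentSeries k) * coeffMap π a * coeffMap π b ^ n := by
  have htw : ∀ (i : ℕ) (x : LaurentSeries R), coeffMap π (twist (ζ ^ i) x) = coeffMap π x := by
    intro i x
    have h1 : Units.map π.toMonoidHom (ζ ^ i) = 1 := Units.ext (hζ1 i)
    rw [coeffMap_twist, h1, twist_one]
  have hcC : coeffMap π (HahnSeries.C c) = 0 := by
    rw [coeffMap_const, hc, map_zero]
  induction n with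
  | zero => exact ⟨0, by simp, by simp⟩
  | succ n ih =>
    obtain ⟨X, h1, h2⟩ := ih
    refine ⟨X * twist (ζ ^ n) b + (∏ i ∈ Finset.range n, twist (ζ ^ i) b) * twist (ζ ^ n) a +
      HahnSeries.C c * X * twist (ζ ^ n) a, ?_, ?_⟩
    · rw [Finset.prod_range_succ, Finset.prod_range_succ, h1, map_add, map_mul, twist_C]
      ring
    · have hprod : coeffMap π (∏ i ∈ Finset.range n, twist (ζ ^ i) b) = coeffMap π b ^ n := by
        rw [map_prod]
        simp only [htw]
        rw [Finset.prod_const, Finset.card_range]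
      rw [map_add, map_add, map_mul, map_mul, map_mul, map_mul, hcC, htw, htw, hprod]
      rw [zero_mul, zero_mul, add_zero, mul_add, ← mul_assoc, h2]
      push_cast
      ring

end Product

section Gauss

variable {L k : Type*} [Field L] [Field k] {A : ValuationSubring L} {π : A →+* k} {ℓ : ℕ}
  [NeZero ℓ]

theorem root_one [ExpChar k ℓ] {ζ : Aˣ} (hζ : IsPrimitiveRoot ζ ℓ) (b : ℕ) :
    π (ζ ^ b : Aˣ) = 1 := by
  have h1 : (π ζ - 1) ^ ℓ = 0 := by
    rw [sub_pow_expChar, one_pow, ← map_pow, ← Units.val_pow_eq_pow_val, hζ.pow_eq_one,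
      Units.val_one, map_one, sub_self]
  have h2 : π ζ = 1 := sub_eq_zero.mp (pow_eq_zero_iff (NeZero.ne ℓ) |>.mp h1)
  rw [Units.val_pow_eq_pow_val, map_pow, h2, one_pow]

/-- `∏_i (1 + c x(ζ^i t)) = 1 + c y(t^ℓ)` with `y` reducing to `0`. -/
theorem exists_prod_one_add (hℓ : ℓ.Prime) [ExpChar k ℓ] {ζ : Aˣ} (hζ : IsPrimitiveRoot ζ ℓ)
    {c : A} (hc : π c = 0) (hc0 : c ≠ 0) {x : LaurentSeries L} {u : LaurentSeries k}
    (h : GRed π x u) :
    ∃ y : LaurentSeries L, GRed π y 0 ∧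
      ModularCurve.qExpand L ℓ (1 + HahnSeries.C (c : L) * y) =
        ∏ b : Fin ℓ, twist ((Units.map A.subtype.toMonoidHom ζ) ^ (b : ℕ))
          (1 + HahnSeries.C (c : L) * x) := by
  obtain ⟨a, b, hb, h1, h2⟩ := h
  haveI : CharP k ℓ := by
    cases ‹ExpChar k ℓ› with
    | zero => exact absurd hℓ (by norm_num)
    | prime _ => assumption
  obtain ⟨nb, hnb⟩ := exists_qExpand_eq_twistProd ℓ hζ b
  obtain ⟨nab, hnab⟩ := exists_qExpand_eq_twistProd ℓ hζ (b + HahnSeries.C c * a)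
  obtain ⟨X, hX1, hX2⟩ := exists_prod_eq π (fun i => root_one hζ i) hc a b ℓ
  have hprod : ∀ z : LaurentSeries A, ∏ i ∈ Finset.range ℓ, twist (ζ ^ i) z = twistProd ℓ ζ z := by
    intro z
    rw [twistProd, Fin.prod_univ_eq_prod_range (fun i => twist (ζ ^ i) z) ℓ]
  rw [hprod, hprod] at hX1
  -- `X` reduces to `0`
  have hXbar : coeffMap π X = 0 := by
    have h3 : ((ℓ : ℕ) : LaurentSeries k) = 0 := by
      rw [← map_natCast (HahnSeries.C : k →+* LaurentSeries k), CharP.cast_eq_zero, map_zero]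
    rw [h3, zero_mul, zero_mul] at hX2
    exact (mul_eq_zero.mp hX2).resolve_left hb
  -- `X` is a series in `t^ℓ`
  obtain ⟨n1, hn1⟩ : ∃ n1 : LaurentSeries A, ModularCurve.qExpand A ℓ n1 = X := by
    have := (mem_range_qExpand_iff ℓ X).mpr ?_
    · exact this
    · intro n hn
      have h3 : HahnSeries.C c * X = ModularCurve.qExpand A ℓ (nab - nb) := by
        rw [map_sub, hnab, hnb, hX1]; ring
      have h4 := congrArg (fun z => HahnSeries.coeff z n) h3
      rw [qExpand_coeff_of_not_dvd _ _ hn, HahnSeries.C_mul_eq_smul, HahnSeries.coeff_smul,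
        smul_eq_mul] at h4
      exact (mul_eq_zero.mp h4).resolve_left hc0
  have hn1bar : coeffMap π n1 = 0 := by
    apply qExpand_injective ℓ
    rw [← coeffMap_qExpand, hn1, hXbar, map_zero]
  have hnbbar : coeffMap π nb ≠ 0 := by
    intro h0
    have h3 : coeffMap π (twistProd ℓ ζ b) = 0 := by
      rw [← hnb, coeffMap_qExpand, h0, map_zero]
    rw [coeffMap_twistProd ℓ hℓ π hζ.pow_eq_one] at h3
    exact hb (pow_eq_zero_iff (NeZero.ne ℓ) |>.mp h3)
  have hnb0 : coeffMap A.subtype nb ≠ 0 := by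
    intro h0
    have : nb = 0 := by
      apply Fermat.Agent.JRED.coeffMap_injective (f := A.subtype) Subtype.val_injective
      rw [h0, map_zero]
    exact hnbbar (by rw [this, map_zero])
  refine ⟨coeffMap A.subtype n1 / coeffMap A.subtype nb, ⟨n1, nb, hnbbar, ?_, ?_⟩, ?_⟩
  · rw [div_mul_cancel₀ _ hnb0]
  · rw [zero_mul, hn1bar]
  · have hb0 : twistProd ℓ (Units.map A.subtype.toMonoidHom ζ) (coeffMap A.subtype b) ≠ 0 := by
      rw [← coeffMap_twistProd', ← hnb, coeffMap_qExpand]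
      intro h0
      exact hnb0 (qExpand_injective ℓ (by rw [h0, map_zero]))
    apply mul_right_cancel₀ hb0
    change _ = twistProd ℓ (Units.map A.subtype.toMonoidHom ζ) _ * _
    rw [← twistProd_mul]
    have e1 : (1 + HahnSeries.C (c : L) * x) * coeffMap A.subtype b =
        coeffMap A.subtype (b + HahnSeries.C c * a) := by
      rw [map_add, map_mul, coeffMap_const, ← h1]
      change _ = _ + HahnSeries.C (c : L) * _
      ring
    rw [e1, ← coeffMap_twistProd', ← coeffMap_twistProd', hX1, ← hnb, ← hn1, coeffMap_qExpand,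
      ← map_mul, add_mul, one_mul, mul_assoc, div_mul_cancel₀ _ hnb0, map_add, map_add, map_mul,
      map_mul, coeffMap_qExpand, coeffMap_qExpand, coeffMap_const]
    congr 2
    rw [HahnSeries.C_apply, qExpand_single, mul_zero]
    rfl

end Gauss

section Modular

variable {A : ValuationSubring (AlgebraicClosure ℚ)} {k : Type} [Field k] {π : A →+* k}

/-- Membership in the Gauss ring in terms of `GRed`. -/
theorem exists_mem_of_gred {N : ℕ} (M : ModularConstRed N π) {g : modularFunctionFieldBar N}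
    {u : LaurentSeries k} (h : GRed π (g : LaurentSeries (AlgebraicClosure ℚ)) u) :
    ∃ hm : g ∈ M.C.O, (M.C.res ⟨g, hm⟩ : LaurentSeries k) = u := by
  obtain ⟨a, b, hb, h1, h2⟩ := h
  have hm : g ∈ M.C.O := (M.mem_O_iff g).mpr ⟨a, b, hb, h1⟩
  refine ⟨hm, ?_⟩
  apply mul_right_cancel₀ hb
  rw [h2]
  exact M.res_eq ⟨g, hm⟩ a b hb h1

theorem gred_of_mem {N : ℕ} (M : ModularConstRed N π) (h : M.C.O) :
    GRed π ((h : modularFunctionFieldBar N) : LaurentSeries (AlgebraicClosure ℚ))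
      (M.C.res h : LaurentSeries k) := by
  obtain ⟨a, b, hb, hab⟩ := (M.mem_O_iff h).mp h.2
  exact ⟨a, b, hb, hab, M.res_eq h a b hb hab⟩

/-- **The refined norm congruence.** -/
theorem exists_norm_one_add (hJ : JAlg) (N ℓ : ℕ) [NeZero N] [NeZero ℓ] (hℓ : ℓ.Prime)
    [ExpChar k ℓ] (M : ModularConstRed N π)
    (w : modularFunctionFieldBar (N * ℓ) →+* modularFunctionFieldBar (N * ℓ))
    (hw1 : ∀ x, w (heckeAlphaBar (AlgebraicClosure ℚ) N ℓ x) = heckeBetaBar (AlgebraicClosure ℚ) N ℓ x)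
    (hw2 : ∀ x, w (heckeBetaBar (AlgebraicClosure ℚ) N ℓ x) = heckeAlphaBar (AlgebraicClosure ℚ) N ℓ x)
    (hdeg : finrankAlong (AlgebraicClosure ℚ) (heckeAlphaBar (AlgebraicClosure ℚ) N ℓ) = ℓ + 1)
    (c : A) (hc : π c = 0) (h : M.C.O) :
    ∃ g : M.C.O,
      normAlong (heckeAlphaBar (AlgebraicClosure ℚ) N ℓ)
        (heckeBetaBar (AlgebraicClosure ℚ) N ℓ (1 + algebraMap (AlgebraicClosure ℚ)
          (modularFunctionFieldBar N) (c : AlgebraicClosure ℚ) * (h : modularFunctionFieldBar N))) =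
        1 + algebraMap (AlgebraicClosure ℚ) (modularFunctionFieldBar N) (c : AlgebraicClosure ℚ) *
          (g : modularFunctionFieldBar N) ∧
      (M.C.res g : LaurentSeries k) = ModularCurve.qExpand k ℓ (M.C.res h : LaurentSeries k) := by
  by_cases hc0 : c = 0
  · obtain ⟨g, hg⟩ := M.C.res_surjective
      ⟨ModularCurve.qExpand k ℓ (M.C.res h : LaurentSeries k), qExpand_mem_full ℓ N (M.C.res h).2⟩
    refine ⟨g, ?_, by rw [hg]⟩
    rw [hc0]
    simp
  · obtain ⟨ζ, hζ⟩ := Fermat.Agent.DR.Mod.exists_primitiveRoot_unit A ℓ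
    have hζ' : IsPrimitiveRoot (Units.map A.subtype.toMonoidHom ζ) ℓ := map_root hζ
    obtain ⟨y, hy, hy2⟩ := exists_prod_one_add hℓ hζ hc hc0 (gred_of_mem M h)
    set f : modularFunctionFieldBar N := 1 + algebraMap (AlgebraicClosure ℚ)
      (modularFunctionFieldBar N) (c : AlgebraicClosure ℚ) * (h : modularFunctionFieldBar N) with hf
    have hcoe : inclL (AlgebraicClosure ℚ) N f =
        1 + HahnSeries.C (c : AlgebraicClosure ℚ) *
          ((h : modularFunctionFieldBar N) : LaurentSeries (AlgebraicClosure ℚ)) := by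
      rw [hf, map_add, map_mul, map_one]
      congr 1
      rw [inclL_apply, inclL_apply]
      congr 1
      exact algebraMap_eq_C _
    have key := qExpand_normAlong (AlgebraicClosure ℚ) hJ N ℓ hℓ w hw1 hw2 hdeg hζ' f
    rw [hcoe, ← hy2, ← map_mul] at key
    have key2 := qExpand_injective ℓ key
    set G := normAlong (heckeAlphaBar (AlgebraicClosure ℚ) N ℓ)
      (heckeBetaBar (AlgebraicClosure ℚ) N ℓ f) with hG
    set sx := ModularCurve.qExpand (AlgebraicClosure ℚ) ℓ
      ((h : modularFunctionFieldBar N) : LaurentSeries (AlgebraicClosure ℚ)) with hsx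
    have hq : ModularCurve.qExpand (AlgebraicClosure ℚ) ℓ
        (1 + HahnSeries.C (c : AlgebraicClosure ℚ) *
          ((h : modularFunctionFieldBar N) : LaurentSeries (AlgebraicClosure ℚ))) =
        1 + HahnSeries.C (c : AlgebraicClosure ℚ) * sx := by
      rw [map_add, map_mul, map_one, HahnSeries.C_apply, qExpand_single, mul_zero]
    rw [hq, inclL_apply] at key2
    have hc' : (c : AlgebraicClosure ℚ) ≠ 0 := fun h0 => hc0 (Subtype.ext h0)
    have hcF : algebraMap (AlgebraicClosure ℚ) (modularFunctionFieldBar N)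
        (c : AlgebraicClosure ℚ) ≠ 0 := by simpa using hc'
    have hcC : (HahnSeries.C (c : AlgebraicClosure ℚ) : LaurentSeries (AlgebraicClosure ℚ)) ≠ 0 := by
      simpa using hc'
    let g : modularFunctionFieldBar N := (G - 1) / algebraMap (AlgebraicClosure ℚ)
      (modularFunctionFieldBar N) (c : AlgebraicClosure ℚ)
    have hg : (g : LaurentSeries (AlgebraicClosure ℚ)) =
        sx + y + HahnSeries.C (c : AlgebraicClosure ℚ) * (sx * y) := by
      have h5 : (g : LaurentSeries (AlgebraicClosure ℚ)) =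
          ((G : LaurentSeries (AlgebraicClosure ℚ)) - 1) /
            HahnSeries.C (c : AlgebraicClosure ℚ) := by
        rw [← algebraMap_eq_C]; rfl
      rw [h5, key2]
      field_simp
      ring
    have hcred : GRed π (HahnSeries.C (c : AlgebraicClosure ℚ) : LaurentSeries _) 0 := by
      have h6 := GRed.const (π := π) c
      rw [hc, map_zero, algebraMap_eq_C] at h6
      exact h6
    have hred : GRed π (g : LaurentSeries (AlgebraicClosure ℚ))
        (ModularCurve.qExpand k ℓ (M.C.res h : LaurentSeries k)) := by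
      have h1 : GRed π sx (ModularCurve.qExpand k ℓ (M.C.res h : LaurentSeries k)) :=
        Fermat.Agent.DR.Mod.GRed.qExpand (gred_of_mem M h) ℓ
      have h2 := (h1.add hy).add (hcred.mul (h1.mul hy))
      rw [← hg, add_zero, zero_mul, add_zero] at h2
      exact h2
    obtain ⟨hm, hres⟩ := exists_mem_of_gred M hred
    refine ⟨⟨g, hm⟩, ?_, hres⟩
    change G = 1 + algebraMap (AlgebraicClosure ℚ) (modularFunctionFieldBar N)
      (c : AlgebraicClosure ℚ) * g
    rw [mul_div_cancel₀ _ hcF]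
    ring

open Fermat.Agent.JRED.ESSemi in
/-- The refined norm congruence, with the inverse Frobenius. -/
theorem exists_norm_one_add' (N ℓ : ℕ) [NeZero N] [NeZero ℓ] (hℓ : ℓ.Prime) (hℓN : ¬ ℓ ∣ N)
    [ExpChar k ℓ] [PerfectRing k ℓ] (M : ModularConstRed N π)
    (c : A) (hc : π c = 0) (h : M.C.O) :
    ∃ g : M.C.O,
      normAlong (heckeAlphaBar (AlgebraicClosure ℚ) N ℓ)
        (heckeBetaBar (AlgebraicClosure ℚ) N ℓ (1 + algebraMap (AlgebraicClosure ℚ)
          (modularFunctionFieldBar N) (c : AlgebraicClosure ℚ) * (h : modularFunctionFieldBar N))) =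
        1 + algebraMap (AlgebraicClosure ℚ) (modularFunctionFieldBar N) (c : AlgebraicClosure ℚ) *
          (g : modularFunctionFieldBar N) ∧
      M.C.res g = ((coeffSemi N (frobeniusEquiv k ℓ))⁻¹ • M.C.res h) ^ ℓ := by
  obtain ⟨⟨w, hw1, hw2⟩, hdeg⟩ := Fermat.Agent.JRED.AL.atkinLehnerInput N ℓ hℓ hℓN
  obtain ⟨g, h1, h2⟩ := exists_norm_one_add Fermat.Agent.Jan.DegreeWiring.jAlg N ℓ hℓ M w hw1 hw2
    hdeg c hc h
  refine ⟨g, h1, Subtype.ext ?_⟩
  rw [h2, SubmonoidClass.coe_pow, coe_coeffSemi_inv_smul, ES.laurent_pow_char ℓ, coeffMap_coeffMap]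
  congr 1
  symm
  refine (coeffMap_congr (g := RingHom.id k) (RingHom.ext fun a => ?_) _).trans (coeffMap_id _)
  exact frobenius_apply_frobeniusEquiv_symm k ℓ a

/-- `T_ℓ (div f) = div (N_α (β f))`. -/
theorem heckeDivBar_eq_ord (N ℓ : ℕ) [NeZero N] [NeZero ℓ]
    [HasPrincipalDivisors (AlgebraicClosure ℚ) (modularFunctionFieldBar (N * ℓ))]
    {f : modularFunctionFieldBar N} (hf : f ≠ 0)
    {D : Divisor (AlgebraicClosure ℚ) (modularFunctionFieldBar N)} (hD : ∀ P, D P = P.ord f)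
    (P : Place (AlgebraicClosure ℚ) (modularFunctionFieldBar N)) :
    heckeDivBar (heckeAlphaBarIntegral (AlgebraicClosure ℚ) N ℓ Fermat.Agent.Jan.DegreeWiring.jAlg)
        (heckeBetaBarIntegral (AlgebraicClosure ℚ) N ℓ Fermat.Agent.Jan.DegreeWiring.jAlg) D P =
      P.ord (normAlong (heckeAlphaBar (AlgebraicClosure ℚ) N ℓ)
        (heckeBetaBar (AlgebraicClosure ℚ) N ℓ f)) := by
  haveI i9 := isFF1_modular (AlgebraicClosure ℚ) Fermat.Agent.Jan.DegreeWiring.jAlg N
  have hfin := finiteAlong_heckeAlphaBar (AlgebraicClosure ℚ) N ℓ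
    Fermat.Agent.Jan.DegreeWiring.jAlg
  exact correspondence_eq_ord _ _
    (heckeBetaBarIntegral (AlgebraicClosure ℚ) N ℓ Fermat.Agent.Jan.DegreeWiring.jAlg)
    (heckeAlphaBarIntegral (AlgebraicClosure ℚ) N ℓ Fermat.Agent.Jan.DegreeWiring.jAlg) hfin
    (Fermat.Agent.Jan.RelFundamental.normFormulaAlong
      (heckeAlphaBar (AlgebraicClosure ℚ) N ℓ) hfin) hf hD P

end Modular

end Fermat.Agent.Mazur.Ord
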