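import Fermat.Agent.Mazur.Ord.Pair
import Fermat.Agent.Mazur.Ord.NormInput
import Fermat.Agent.JRED.ESFinal
import Fermat.Agent.JRED.Main

set_option autoImplicit false
set_option linter.unusedSectionVars false
set_option linter.style.haveILetI false

/-!
# (O) for `J₀(N)`

`W` a finite set of classes in `J₀(N)(ℚ̄)[ℓ]`, `ℓ ∤ N`, reducing to `0` at a place `A ∣ ℓ`, with
`W ⊆ T_ℓ W`.  Then for `t, t' ∈ W` there are representatives `D`, `D'` and functions `f`, `f'`,
`div f = ℓ D`, `div f' = ℓ D'`, with `f(D') = f'(D)` (given that the `ℓ`-th powers agree, which is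
Weil reciprocity).
-/

noncomputable section

open AlgebraicCurve ModularCurve

namespace Fermat.Agent.Mazur.Ord

open Fermat.Agent.JRED Fermat.Agent.Mazur.Weil

section Curve

variable {K F : Type*} [Field K] [Field F] [Algebra K F] [IsAlgClosed K] [RR.FunctionField K F]

/-- Nonspecial reduced divisors avoiding a finite set. -/
theorem exists_nonspecial_avoid (B : Finset (Place K F)) (n : ℕ) (hn : n ≤ genusFF K F) :
    ∃ T : Finset (Place K F), T.card = n ∧ Disjoint T B ∧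
      Module.finrank K (riemannRochSpace (sumPlaces T)) = 1 := by
  classical
  induction n with
  | zero =>
    refine ⟨∅, rfl, Finset.disjoint_empty_left B, ?_⟩
    rw [show sumPlaces (∅ : Finset (Place K F)) = 0 from rfl]
    exact RR.finrank_riemannRochSpace_zero
  | succ n ih =>
    obtain ⟨T, hT, hTB, hT1⟩ := ih (by omega)
    by_cases hcase : ∀ Q, Q ∉ T ∪ B →
        ¬ riemannRochSpace (sumPlaces T + Finsupp.single Q 1) ≤ riemannRochSpace (sumPlaces T)
    · exfalso
      have := infinite_place (K := K) (F := F)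
      obtain ⟨T₁, hTT₁, hT₁⟩ := Infinite.exists_superset_card_eq (T ∪ B)
        ((T ∪ B).card + 2 * genusFF K F + 1) (by omega)
      have h1 := finrank_add_ge (T ∪ B) (sumPlaces T) hcase (T₁ \ (T ∪ B)) Finset.disjoint_sdiff
      have hcard : (T₁ \ (T ∪ B)).card = 2 * genusFF K F + 1 := by
        rw [Finset.card_sdiff_of_subset hTT₁, hT₁]; omega
      have h3 : Divisor.degree (sumPlaces T + sumPlaces (T₁ \ (T ∪ B))) =
          (n + (2 * genusFF K F + 1) : ℕ) := by
        rw [map_add, degree_sumPlaces, degree_sumPlaces, hcard, hT]; push_cast; ring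
      have h4 := RR.finrank_riemannRochSpace_eq
        (D := sumPlaces T + sumPlaces (T₁ \ (T ∪ B))) (by rw [h3]; push_cast; omega)
      rw [h3] at h4
      rw [hT1, hcard] at h1
      push_cast at h4
      omega
    · push Not at hcase
      obtain ⟨Q, hQ, hle⟩ := hcase
      rw [Finset.mem_union, not_or] at hQ
      refine ⟨insert Q T, by rw [Finset.card_insert_of_notMem hQ.1, hT], ?_, ?_⟩
      · rw [Finset.disjoint_insert_left]
        exact ⟨hQ.2, hTB⟩
      have hins : sumPlaces (insert Q T) = sumPlaces T + Finsupp.single Q 1 := by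
        rw [sumPlaces, Finset.sum_insert hQ.1, add_comm]; rfl
      rw [hins]
      refine le_antisymm ((Submodule.finrank_mono hle).trans hT1.le) ?_
      rw [← hT1]
      refine Submodule.finrank_mono (RR.riemannRochSpace_mono ?_)
      intro P
      simp only [Finsupp.add_apply]
      have : 0 ≤ (Finsupp.single Q 1 : Divisor K F) P := by
        rw [Finsupp.single_apply]; split_ifs <;> norm_num
      linarith

end Curve

section Lift

variable {K k : Type*} [Field K] [Field k] {A : ValuationSubring K} {π : A →+* k}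
  {F F' : Type*} [Field F] [Field F'] [Algebra K F] [Algebra k F']
  [IsAlgClosed K] [IsAlgClosed k] [RR.FunctionField K F] [RR.FunctionField k F']

theorem exists_lift_sumPlaces (C : ConstRed A π F F') {r : Place K F → Place k F'}
    (hr : C.IsPlaceMap r) (S : Finset (Place k F')) :
    ∃ E₀ : Divisor K F, 0 ≤ E₀ ∧ Finsupp.mapDomain r E₀ = sumPlaces S := by
  classical
  choose s hs using fun Q => C.exists_place_over hr Q
  refine ⟨∑ Q ∈ S, Finsupp.single (s Q) (1 : ℤ), ?_, ?_⟩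
  · refine Finset.sum_nonneg fun Q _ => ?_
    intro P
    rw [Finsupp.single_apply]
    split_ifs <;> norm_num
  · rw [← Finsupp.mapDomain.addMonoidHom_apply, map_sum, sumPlaces]
    refine Finset.sum_congr rfl fun Q _ => ?_
    rw [Finsupp.mapDomain.addMonoidHom_apply, Finsupp.mapDomain_single, hs Q]

/-- **(O)**, abstract form. -/
theorem exists_tame_pair_abstract (hπ : Function.Surjective π) (C : ConstRed A π F F')
    {r : Place K F → Place k F'} (hr : C.IsPlaceMap r) {p : ℕ} (hp : p.Prime) [CharP k p]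
    (hp0 : (p : K) ≠ 0) (hG : genusFF K F = genusFF k F')
    (TD : Divisor K F →+ Divisor K F)
    (hTprin : ∀ D : Divisor K F, Divisor.IsPrincipal D → Divisor.IsPrincipal (TD D))
    (hTD : ∀ (c : K) (h : C.O), C.O.valuation (algebraMap K F c) < 1 →
      ∃ g : C.O, (∃ x, C.res g = x ^ p) ∧
        TD (RR.divOf (1 + algebraMap K F c * h)) = RR.divOf (1 + algebraMap K F c * g))
    {ι : Type*} [Finite ι] (D : ι → Divisor K F) (hDdeg : ∀ i, Divisor.degree (D i) = 0)
    (hpD : ∀ i, Divisor.IsPrincipal (p • D i))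
    (hred : ∀ i, Divisor.IsPrincipal (Finsupp.mapDomain r (D i)))
    (hT : ∀ i, ∃ j, Divisor.IsPrincipal (D i - TD (D j))) (i j : ι) :
    ∃ (X Y : Divisor K F) (f g : F), f ≠ 0 ∧ g ≠ 0 ∧ Divisor.IsPrincipal (D i - X) ∧
      Divisor.IsPrincipal (D j - Y) ∧ p • X = RR.divOf f ∧ p • Y = RR.divOf g ∧ Disj f Y ∧
      Disj g X ∧ (evalDiv f Y ^ p = evalDiv g X ^ p → evalDiv f Y = evalDiv g X) := by
  classical
  have hp1 : 0 < p - 1 := by have := hp.two_le; omega
  obtain ⟨ϖ, hϖ⟩ := IsAlgClosed.exists_pow_nat_eq (-(p : K)) hp1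
  obtain ⟨hϖ0, hϖA, hϖπ⟩ := uniformizer_facts (A := A) (π := π) hp hp0 hϖ
  obtain ⟨S, hScard, -, hS⟩ := exists_nonspecial_avoid (K := k) (F := F') ∅ _ hG.le
  obtain ⟨S', hScard', hdisj, hS'⟩ := exists_nonspecial_avoid (K := k) (F := F') S _ hG.le
  obtain ⟨E₀, hE₀, hE₀S⟩ := exists_lift_sumPlaces C hr S
  obtain ⟨E₀', hE₀', hE₀S'⟩ := exists_lift_sumPlaces C hr S'
  obtain ⟨E, hE, hES, hDE, h, hh⟩ :=
    ordinary_estimate hπ C hr hp hp0 hϖ TD hTprin hTD D hDdeg hpD hred hT hScard hS hE₀ hE₀S i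
  obtain ⟨E', hE', hES', hDE', h', hh'⟩ :=
    ordinary_estimate hπ C hr hp hp0 hϖ TD hTprin hTD D hDdeg hpD hred hT hScard' hS' hE₀' hE₀S' j
  have hne : ∀ h : C.O, (1 + algebraMap K F (ϖ ^ p) * (h : F)) ≠ 0 := by
    intro h h0
    have ht' : C.O.valuation (algebraMap K F (ϖ ^ p)) < 1 := by
      have h1 : π ⟨ϖ ^ p, pow_mem hϖA p⟩ = 0 := by
        have : (⟨ϖ ^ p, pow_mem hϖA p⟩ : A) = ⟨ϖ, hϖA⟩ ^ p := rfl
        rw [this, map_pow, hϖπ, zero_pow hp.ne_zero]
      exact (gv_algebraMap_lt_one_iff C ⟨ϖ ^ p, pow_mem hϖA p⟩).mpr h1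
    have h1 : C.O.valuation (1 + algebraMap K F (ϖ ^ p) * (h : F)) = 1 := by
      apply Valuation.map_one_add_of_lt
      rw [map_mul]
      exact lt_of_le_of_lt (mul_le_of_le_one_right' (C.O.valuation_le_one h)) ht'
    rw [h0, map_zero] at h1
    exact zero_ne_one h1
  have hSS' : ∀ Q, sumPlaces S Q ≠ 0 → sumPlaces S' Q = 0 := by
    intro Q hQ
    rw [sumPlaces_apply] at hQ ⊢
    rw [if_neg]
    intro hQ'
    refine hQ (if_neg fun hQS => ?_)
    exact (Finset.disjoint_left.mp hdisj) hQ' hQS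
  have hS'S : ∀ Q, sumPlaces S' Q ≠ 0 → sumPlaces S Q = 0 := fun Q hQ => by
    by_contra h0
    exact hQ (hSS' Q h0)
  have hpos : ∀ (X : Divisor K F) (T : Divisor k F'), 0 ≤ X → Finsupp.mapDomain r X = T →
      ∀ P, X P ≠ 0 → T (r P) ≠ 0 := by
    intro X T hX hXT P hP h0
    have h1 := le_mapDomain (r := r) (D := X) (Q := r P) (fun P'' _ => hX P'') rfl
    rw [hXT, h0] at h1
    exact hP (le_antisymm h1 (hX P))
  have hsub : ∀ (X Y : Divisor K F) (T : Divisor k F'), 0 ≤ X → 0 ≤ Y →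
      Finsupp.mapDomain r X = T → Finsupp.mapDomain r Y = T → ∀ P, (X - Y) P ≠ 0 →
      T (r P) ≠ 0 := by
    intro X Y T hX hY hXT hYT P hP
    by_cases h1 : X P = 0
    · refine hpos Y T hY hYT P fun h2 => hP ?_
      rw [Finsupp.sub_apply, h1, h2, sub_zero]
    · exact hpos X T hX hXT P h1
  refine ⟨E - E₀, E' - E₀', _, _, hne h, hne h', hDE, hDE', hh, hh', ?_, ?_,
    evalDiv_eq_of_ordinary C hπ hr hp hp0 hϖ hE hE₀ hE' hE₀' hES hE₀S hES' hE₀S' hSS' hh hh'⟩
  · intro P hP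
    rw [← RR.divOf_apply, ← hh, Finsupp.smul_apply]
    have h1 := hS'S _ (hsub E' E₀' _ hE' hE₀' hES' hE₀S' P hP)
    have h2 : (E - E₀) P = 0 := by
      by_contra h0
      exact hsub E E₀ _ hE hE₀ hES hE₀S P h0 h1
    rw [h2, smul_zero]
  · intro P hP
    rw [← RR.divOf_apply, ← hh', Finsupp.smul_apply]
    have h1 := hSS' _ (hsub E E₀ _ hE hE₀ hES hE₀S P hP)
    have h2 : (E' - E₀') P = 0 := by
      by_contra h0
      exact hsub E' E₀' _ hE' hE₀' hES' hE₀S' P h0 h1
    rw [h2, smul_zero]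

end Lift

section Modular

open Fermat.Agent.JRED.ESFinal Fermat.Agent.JRED.ESGalois Fermat.Agent.Jan.HeckeInputs
  Fermat.Agent.Jan.HeckeNorm

variable {N : ℕ} [NeZero N] {A : ValuationSubring (AlgebraicClosure ℚ)} {k : Type} [Field k]
  {π : A →+* k}

/-- **(O)** for `J₀(N)`. -/
theorem exists_tame_pair (hπ : Function.Surjective π) {ℓ : ℕ} [NeZero ℓ] (hℓ : ℓ.Prime)
    [CharP k ℓ] (hℓN : ¬ ℓ ∣ N) [IsAlgClosed k]
    [RR.FunctionField (AlgebraicClosure ℚ) (modularFunctionFieldBar N)]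
    [RR.FunctionField k (modularFunctionFieldFullC k N)] (hG : GoodReduction N k)
    (M : ModularConstRed N π)
    {r : Place (AlgebraicClosure ℚ) (modularFunctionFieldBar N) →
      Place k (modularFunctionFieldFullC k N)} (hr : M.C.IsPlaceMap r)
    {W : Set (JZero N)} (hW : W.Finite) (hℓW : ∀ t ∈ W, ℓ • t = 0)
    (hred : ∀ t ∈ W, redMap M hr t = 0)
    (hTW : ∀ t ∈ W, ∃ s ∈ W, heckeOperatorBar N ⟨ℓ, hℓ⟩ s = t) {t t' : JZero N} (ht : t ∈ W)
    (ht' : t' ∈ W) :
    ∃ (D D' : Divisor.degZero (K := AlgebraicClosure ℚ) (F := modularFunctionFieldBar N))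
      (f f' : modularFunctionFieldBar N), f ≠ 0 ∧ f' ≠ 0 ∧ Pic0.mk D = t ∧ Pic0.mk D' = t' ∧
      ℓ • (D : Divisor (AlgebraicClosure ℚ) (modularFunctionFieldBar N)) = RR.divOf f ∧
      ℓ • (D' : Divisor (AlgebraicClosure ℚ) (modularFunctionFieldBar N)) = RR.divOf f' ∧
      Disj f (D' : Divisor (AlgebraicClosure ℚ) (modularFunctionFieldBar N)) ∧
      Disj f' (D : Divisor (AlgebraicClosure ℚ) (modularFunctionFieldBar N)) ∧
      (evalDiv f (D' : Divisor (AlgebraicClosure ℚ) (modularFunctionFieldBar N)) ^ ℓ =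
        evalDiv f' (D : Divisor (AlgebraicClosure ℚ) (modularFunctionFieldBar N)) ^ ℓ →
      evalDiv f (D' : Divisor (AlgebraicClosure ℚ) (modularFunctionFieldBar N)) =
        evalDiv f' (D : Divisor (AlgebraicClosure ℚ) (modularFunctionFieldBar N))) := by
  classical
  have hjA := Fermat.Agent.Jan.DegreeWiring.jAlg
  haveI := hasPrincipalDivisors_modular (AlgebraicClosure ℚ) hjA (N * ℓ)
  have hα := heckeAlphaBarIntegral (AlgebraicClosure ℚ) N ℓ hjA
  have hβ := heckeBetaBarIntegral (AlgebraicClosure ℚ) N ℓ hjA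
  have hfin := finiteAlong_heckeAlphaBar (AlgebraicClosure ℚ) N ℓ hjA
  haveI := isFF1_modular (AlgebraicClosure ℚ) hjA N
  have hNF := Fermat.Agent.Jan.RelFundamental.normFormulaAlong
    (heckeAlphaBar (AlgebraicClosure ℚ) N ℓ) hfin
  haveI : ExpChar k ℓ := ExpChar.prime hℓ
  haveI : Fact ℓ.Prime := ⟨hℓ⟩
  haveI : PerfectRing k ℓ := inferInstance
  have hℓ0 : (ℓ : AlgebraicClosure ℚ) ≠ 0 := by exact_mod_cast hℓ.ne_zero
  -- the correspondence on divisors
  set TD := heckeDivBar hα hβ with hTDdef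
  have hTD : ∀ (c : AlgebraicClosure ℚ) (h : M.C.O),
      M.C.O.valuation (algebraMap (AlgebraicClosure ℚ) (modularFunctionFieldBar N) c) < 1 →
      ∃ g : M.C.O, (∃ x, M.C.res g = x ^ ℓ) ∧
        TD (RR.divOf (1 + algebraMap (AlgebraicClosure ℚ) (modularFunctionFieldBar N) c * h)) =
          RR.divOf (1 + algebraMap (AlgebraicClosure ℚ) (modularFunctionFieldBar N) c * g) := by
    intro c h hc
    have hcA : c ∈ A := (gv_algebraMap_le_one_iff M.C hπ c).mp hc.le
    have hcπ : π ⟨c, hcA⟩ = 0 := (gv_algebraMap_lt_one_iff M.C ⟨c, hcA⟩).mp hc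
    obtain ⟨g, hg, hgres⟩ := exists_norm_one_add' N ℓ hℓ hℓN M ⟨c, hcA⟩ hcπ h
    refine ⟨g, ⟨_, hgres⟩, ?_⟩
    have hne : (1 + algebraMap (AlgebraicClosure ℚ) (modularFunctionFieldBar N) c *
        (h : modularFunctionFieldBar N)) ≠ 0 := by
      intro h0
      have h1 : M.C.O.valuation (1 + algebraMap (AlgebraicClosure ℚ) (modularFunctionFieldBar N) c *
          (h : modularFunctionFieldBar N)) = 1 := by
        apply Valuation.map_one_add_of_lt
        rw [map_mul]
        exact lt_of_le_of_lt (mul_le_of_le_one_right' (M.C.O.valuation_le_one h)) hc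
      rw [h0, map_zero] at h1
      exact zero_ne_one h1
    ext P
    rw [RR.divOf_apply]
    have h2 := heckeDivBar_eq_ord N ℓ hne
      (D := RR.divOf (1 + algebraMap (AlgebraicClosure ℚ) (modularFunctionFieldBar N) c *
        (h : modularFunctionFieldBar N))) (fun P => RR.divOf_apply _ P) P
    rw [hTDdef, h2, hg]
  have hTprin : ∀ D : Divisor (AlgebraicClosure ℚ) (modularFunctionFieldBar N),
      Divisor.IsPrincipal D → Divisor.IsPrincipal (TD D) := fun D hD =>
    Divisor.correspondence_mem_principal _ _ _ _ hfin hNF hD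
  -- representatives
  haveI : Finite W := hW
  choose Dr hDr using fun i : W => Pic0.mk_surjective (i : JZero N)
  have hpD : ∀ i : W, Divisor.IsPrincipal
      (ℓ • (Dr i : Divisor (AlgebraicClosure ℚ) (modularFunctionFieldBar N))) := by
    intro i
    have h3 : (Pic0.mk (ℓ • Dr i) : JZero N) = 0 := by
      have h4 : (Pic0.mk (ℓ • Dr i) : JZero N) = ℓ • Pic0.mk (Dr i) := rfl
      rw [h4, hDr]
      exact hℓW i i.2
    have h4 := (QuotientAddGroup.eq_zero_iff _).mp h3
    rw [AddSubgroup.mem_addSubgroupOf] at h4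
    exact h4
  have hredD : ∀ i : W, Divisor.IsPrincipal (Finsupp.mapDomain r
      (Dr i : Divisor (AlgebraicClosure ℚ) (modularFunctionFieldBar N))) := by
    intro i
    have h3 := hred i i.2
    rw [← hDr i, redMap_mk] at h3
    exact (QuotientAddGroup.eq_zero_iff _).mp h3
  have hT : ∀ i : W, ∃ j : W, Divisor.IsPrincipal
      ((Dr i : Divisor (AlgebraicClosure ℚ) (modularFunctionFieldBar N)) - TD (Dr j)) := by
    intro i
    obtain ⟨s, hs, hsi⟩ := hTW i i.2
    refine ⟨⟨s, hs⟩, ?_⟩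
    obtain ⟨hdeg, h3⟩ := heckeOperatorBar_mk hjA N ⟨ℓ, hℓ⟩ (Dr ⟨s, hs⟩)
    rw [hDr ⟨s, hs⟩, hsi, ← hDr i] at h3
    have h4 : (Pic0.mk (Dr i - ⟨_, hdeg⟩) : JZero N) = 0 := by
      have h5 : (Pic0.mk (Dr i - ⟨_, hdeg⟩) : JZero N) = Pic0.mk (Dr i) - Pic0.mk ⟨_, hdeg⟩ := rfl
      rw [h5, h3, sub_self]
    have h6 := (QuotientAddGroup.eq_zero_iff _).mp h4
    rw [AddSubgroup.mem_addSubgroupOf] at h6
    exact h6
  have hG' : genusFF (AlgebraicClosure ℚ) (modularFunctionFieldBar N) =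
    genusFF k (modularFunctionFieldFullC k N) := hG
  obtain ⟨X, Y, f, g, hf, hg, hX, hY, hXf, hYg, h1, h2, h3⟩ :=
    exists_tame_pair_abstract hπ M.C hr hℓ hℓ0 hG' TD hTprin hTD
      (fun i : W => (Dr i : Divisor (AlgebraicClosure ℚ) (modularFunctionFieldBar N)))
      (fun i => (Dr i).2) hpD hredD hT ⟨t, ht⟩ ⟨t', ht'⟩
  have hdeg0 : ∀ (i : W) (X : Divisor (AlgebraicClosure ℚ) (modularFunctionFieldBar N)),
      Divisor.IsPrincipal ((Dr i : Divisor (AlgebraicClosure ℚ) (modularFunctionFieldBar N)) - X) →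
      Divisor.degree X = 0 := by
    intro i X hX
    have h1 := RR.degree_eq_zero_of_isPrincipal hX
    rw [map_sub, (Dr i).2] at h1
    linarith
  have hclass : ∀ (i : W) (X : Divisor (AlgebraicClosure ℚ) (modularFunctionFieldBar N))
      (hX : Divisor.IsPrincipal
        ((Dr i : Divisor (AlgebraicClosure ℚ) (modularFunctionFieldBar N)) - X)),
      (Pic0.mk ⟨X, hdeg0 i X hX⟩ : JZero N) = i := by
    intro i X hX
    rw [← hDr i]
    symm
    rw [← sub_eq_zero]
    have h5 : (Pic0.mk (Dr i) - Pic0.mk ⟨X, hdeg0 i X hX⟩ : JZero N) =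
      Pic0.mk (Dr i - ⟨X, hdeg0 i X hX⟩) := rfl
    rw [h5]
    refine (QuotientAddGroup.eq_zero_iff _).mpr ?_
    rw [AddSubgroup.mem_addSubgroupOf]
    exact hX
  exact ⟨⟨X, hdeg0 ⟨t, ht⟩ _ hX⟩, ⟨Y, hdeg0 ⟨t', ht'⟩ _ hY⟩, f, g, hf, hg,
    hclass ⟨t, ht⟩ _ hX, hclass ⟨t', ht'⟩ _ hY, hXf, hYg, h1, h2, h3⟩

/-- The prelude reduction map and `redMap` have the same kernel on torsion. -/
theorem redMap_eq_zero_of_reductionAlong (hπ : Function.Surjective π) [IsAlgClosed k]
    [RR.FunctionField (AlgebraicClosure ℚ) (modularFunctionFieldBar N)]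
    (hdeg : DegreeInput N k) (h : ReductionInputsAlong A π N) (M : ModularConstRed N π)
    {r : Place (AlgebraicClosure ℚ) (modularFunctionFieldBar N) →
      Place k (modularFunctionFieldFullC k N)} (hr : M.C.IsPlaceMap r) {m : ℕ} (hm : m ≠ 0)
    {t : JZero N} (hmt : m • t = 0) (ht : reductionAlong A π N t = 0) : redMap M hr t = 0 := by
  obtain ⟨⟨D, hD⟩, rfl⟩ := Pic0.mk_surjective t
  have hr' := M.isPlaceReductionAlong hπ hdeg hr
  have h1 : Divisor.IsPrincipal (m • D) := by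
    have h2 : Pic0.mk (m • (⟨D, hD⟩ : Divisor.degZero (K := AlgebraicClosure ℚ)
        (F := modularFunctionFieldBar N))) = 0 := hmt
    exact (QuotientAddGroup.eq_zero_iff _).mp h2
  have h3 : Divisor.IsPrincipal (Finsupp.mapDomain h.choose D) := by
    rw [reductionAlong_mk h] at ht
    exact (QuotientAddGroup.eq_zero_iff _).mp ht
  rw [mapDomain_eq_of_torsion h.choose_spec.2 h.choose_spec.1 hr' hm h1] at h3
  rw [redMap_mk]
  exact (QuotientAddGroup.eq_zero_iff _).mpr h3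

/-- **(O)** for `J₀(N)` and the prelude reduction map `reductionModL`. -/
theorem exists_tame_pair_modL {ℓ : ℕ} (hℓ : ℓ.Prime) (hℓN : ¬ ℓ ∣ N)
    (A : ValuationSubring (AlgebraicClosure ℚ)) (hA : A.LiesOverPrime ℓ)
    [RR.FunctionField (AlgebraicClosure ℚ) (modularFunctionFieldBar N)]
    (h : ReductionInputsModL A N)
    {W : Set (JZero N)} (hW : W.Finite) (hℓW : ∀ t ∈ W, ℓ • t = 0)
    (hred : ∀ t ∈ W, reductionModL A N t = 0)
    (hTW : ∀ t ∈ W, ∃ s ∈ W, heckeOperatorBar N ⟨ℓ, hℓ⟩ s = t) {t t' : JZero N} (ht : t ∈ W)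
    (ht' : t' ∈ W) :
    ∃ (D D' : Divisor.degZero (K := AlgebraicClosure ℚ) (F := modularFunctionFieldBar N))
      (f f' : modularFunctionFieldBar N), f ≠ 0 ∧ f' ≠ 0 ∧ Pic0.mk D = t ∧ Pic0.mk D' = t' ∧
      ℓ • (D : Divisor (AlgebraicClosure ℚ) (modularFunctionFieldBar N)) = RR.divOf f ∧
      ℓ • (D' : Divisor (AlgebraicClosure ℚ) (modularFunctionFieldBar N)) = RR.divOf f' ∧
      Disj f (D' : Divisor (AlgebraicClosure ℚ) (modularFunctionFieldBar N)) ∧
      Disj f' (D : Divisor (AlgebraicClosure ℚ) (modularFunctionFieldBar N)) ∧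
      (evalDiv f (D' : Divisor (AlgebraicClosure ℚ) (modularFunctionFieldBar N)) ^ ℓ =
        evalDiv f' (D : Divisor (AlgebraicClosure ℚ) (modularFunctionFieldBar N)) ^ ℓ →
      evalDiv f (D' : Divisor (AlgebraicClosure ℚ) (modularFunctionFieldBar N)) =
        evalDiv f' (D : Divisor (AlgebraicClosure ℚ) (modularFunctionFieldBar N))) := by
  have hπ : Function.Surjective (IsLocalRing.residue A) := IsLocalRing.residue_surjective
  haveI i1 : CharP (IsLocalRing.ResidueField A) ℓ := charP_of_liesOver hπ hℓ hA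
  haveI i2 : IsAlgClosed (IsLocalRing.ResidueField A) := isAlgClosed_of_surjective hπ
  haveI : NeZero ℓ := ⟨hℓ.ne_zero⟩
  have hdeg : DegreeInput N (IsLocalRing.ResidueField A) := degreeInput' (NeZero.ne N) hℓN
  have hG : GoodReduction N (IsLocalRing.ResidueField A) :=
    goodReduction hπ hℓ (NeZero.ne N) hℓN
  haveI := hdeg.functionField'
  obtain ⟨r, hr⟩ := (hdeg.modularConstRed hπ).exists_isPlaceMap hπ hdeg hG
  exact exists_tame_pair hπ hℓ hℓN hG (hdeg.modularConstRed hπ) hr hW hℓW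
    (fun t ht => redMap_eq_zero_of_reductionAlong hπ hdeg h _ hr hℓ.ne_zero (hℓW t ht)
      (hred t ht)) hTW ht ht'

end Modular

end Fermat.Agent.Mazur.Ord
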