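import Fermat.Agent.JRED.Torsion

set_option autoImplicit false

/-!
# Gauss distance to constants (piece O of the plan for S15)

For a constant reduction `C : ConstRed A π F F'` we use the valuation `C.O.valuation` of `F`.
* `exists_rep`: every `f` is constant or `a + c e` with `e` integral with nonconstant residue.
* `one_add_pow`: `(1 + b g)^p = 1 + b^p g^p + δ`, `|δ| ≤ |p b|`.
* `lower`: if `|ϖ^p| < |c₀| < 1` and `|c| ≤ |c₀|` and `res g` is a `p`-th power then `1 + c g` is
  a `p`-th power times a function `1 + δ`, `|δ| < |c₀|`.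
* `near_of_pow`: the reduced representative.
-/

noncomputable section

open AlgebraicCurve WithZero Fermat.FF IntermediateField

namespace Fermat.Agent.Mazur.Ord

open Fermat.Agent.JRED

variable {K k : Type*} [Field K] [Field k] {A : ValuationSubring K} {π : A →+* k}
  {F F' : Type*} [Field F] [Field F'] [Algebra K F] [Algebra k F']

section Gauss

variable (C : ConstRed A π F F')

theorem gv_lt_one_iff (x : C.O) : C.O.valuation (x : F) < 1 ↔ C.res x = 0 := by
  rw [← ValuationSubring.valuation_lt_one_iff]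
  have hmax : (RingHom.ker C.res).IsMaximal := RingHom.ker_isMaximal_of_surjective _ C.res_surjective
  rw [← IsLocalRing.eq_maximalIdeal hmax, RingHom.mem_ker]

theorem gv_eq_one_iff (x : C.O) : C.O.valuation (x : F) = 1 ↔ C.res x ≠ 0 := by
  rw [Ne, ← gv_lt_one_iff, not_lt]
  constructor
  · intro h; exact h.ge
  · intro h; exact le_antisymm (C.O.valuation_le_one x) h

theorem gv_algebraMap_le_one_iff (hπ : Function.Surjective π) (c : K) :
    C.O.valuation (algebraMap K F c) ≤ 1 ↔ c ∈ A := by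
  rw [C.O.valuation_le_one_iff]
  constructor
  · intro h
    exact RedDatum.mem_of_red_const (R := C.toRedDatum) hπ ⟨h, rfl⟩
  · intro h
    exact C.algebraMap_mem ⟨c, h⟩

theorem gv_algebraMap_lt_one_iff (c : A) :
    C.O.valuation (algebraMap K F c) < 1 ↔ π c = 0 := by
  rw [show algebraMap K F c = ((⟨_, C.algebraMap_mem c⟩ : C.O) : F) from rfl, gv_lt_one_iff,
    C.res_algebraMap, map_eq_zero_iff _ (algebraMap k F').injective]

/-- Same value group. -/
theorem exists_gv_eq {f : F} (hf : f ≠ 0) :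
    ∃ c : K, c ≠ 0 ∧ C.O.valuation (algebraMap K F c) = C.O.valuation f := by
  obtain ⟨c, hc, h, hr⟩ := C.exists_unit f hf
  refine ⟨c⁻¹, inv_ne_zero hc, ?_⟩
  have h1 := (gv_eq_one_iff C ⟨_, h⟩).mpr hr
  rw [map_mul] at h1
  rw [map_inv₀, map_inv₀]
  exact inv_eq_of_mul_eq_one_right h1

/-- `x = c₀ x'` with `x'` integral as soon as `|x| ≤ |c₀|`. -/
theorem exists_eq_mul {x : F} {c₀ : K} (hc₀ : c₀ ≠ 0)
    (h : C.O.valuation x ≤ C.O.valuation (algebraMap K F c₀)) :
    ∃ y : C.O, x = algebraMap K F c₀ * y := by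
  have h0 : algebraMap K F c₀ ≠ 0 := by simpa using hc₀
  refine ⟨⟨x / algebraMap K F c₀, ?_⟩, ?_⟩
  · rw [← C.O.valuation_le_one_iff, map_div₀]
    exact div_le_one_of_le₀ h zero_le
  · change x = algebraMap K F c₀ * (x / algebraMap K F c₀)
    field_simp

/-- Residue not constant. -/
def NC (e : C.O) : Prop := ∀ b : k, C.res e ≠ algebraMap k F' b

variable {C}

theorem NC.one_le (hπ : Function.Surjective π) {e : C.O} (he : NC C e) (a : K) :
    1 ≤ C.O.valuation ((e : F) + algebraMap K F a) := by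
  by_contra h
  rw [not_le] at h
  have h1 : algebraMap K F a ∈ C.O := by
    rw [← C.O.valuation_le_one_iff]
    have h2 : algebraMap K F a = ((e : F) + algebraMap K F a) - e := by ring
    rw [h2]
    exact (Valuation.map_sub _ _ _).trans (max_le h.le (C.O.valuation_le_one e))
  have ha : a ∈ A := by
    rw [← gv_algebraMap_le_one_iff C hπ, C.O.valuation_le_one_iff]
    exact h1
  have h3 := (gv_lt_one_iff C (e + ⟨_, C.algebraMap_mem ⟨a, ha⟩⟩)).mp h
  rw [map_add, C.res_algebraMap] at h3
  refine he (-π ⟨a, ha⟩) ?_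
  rw [map_neg]
  exact eq_neg_of_add_eq_zero_left h3

theorem NC.le (hπ : Function.Surjective π) {e : C.O} (he : NC C e) (a c : K) :
    C.O.valuation (algebraMap K F c) ≤ C.O.valuation (algebraMap K F a + algebraMap K F c * e) := by
  rcases eq_or_ne c 0 with rfl | hc
  · simp
  have h0 : algebraMap K F c ≠ 0 := by simpa using hc
  have h1 : algebraMap K F a + algebraMap K F c * e =
      algebraMap K F c * ((e : F) + algebraMap K F (a / c)) := by
    rw [map_div₀]; field_simp; ring
  rw [h1, map_mul]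
  exact le_mul_of_one_le_right' (he.one_le hπ _)

theorem NC.gv_eq_one (hπ : Function.Surjective π) {e : C.O} (he : NC C e) :
    C.O.valuation (e : F) = 1 := by
  refine le_antisymm (C.O.valuation_le_one e) ?_
  have := he.one_le hπ 0
  rwa [map_zero, add_zero] at this

variable (C)

/-- Every function is constant, or a constant plus a scalar times an integral function with
nonconstant residue. -/
theorem exists_rep (hπ : Function.Surjective π) (f : F) :
    (∃ a : K, f = algebraMap K F a) ∨ ∃ (a c : K) (e : C.O), c ≠ 0 ∧ NC C e ∧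
      f = algebraMap K F a + algebraMap K F c * e ∧ (e : F) ∈ Submodule.span K {1, f} := by
  classical
  by_cases hf : ∃ a : K, f = algebraMap K F a
  · exact Or.inl hf
  right
  set W : Submodule K F := Submodule.span K {1, f} with hW
  have hfin : Module.Finite K W := by
    rw [hW]
    exact Module.Finite.span_of_finite K (Set.toFinite _)
  obtain ⟨b, hbW, hbO, hli⟩ := C.exists_basis W hfin
  have h2 : 2 ≤ Module.finrank K W := by
    have hli2 : LinearIndependent K ![(1 : F), f] := by
      rw [LinearIndependent.pair_iff' one_ne_zero]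
      intro a ha
      exact hf ⟨a, by rw [← ha, Algebra.smul_def, mul_one]⟩
    have h3 := finrank_span_eq_card hli2
    rw [Fintype.card_fin, Matrix.range_cons, Matrix.range_cons, Matrix.range_empty,
      Set.union_empty, Set.singleton_union] at h3
    exact h3.ge
  obtain ⟨i, hi⟩ : ∃ i, NC C ⟨b i, hbO i⟩ := by
    by_contra hcon
    unfold NC at hcon
    push Not at hcon
    obtain ⟨x, hx⟩ := hcon ⟨0, by omega⟩
    obtain ⟨y, hy⟩ := hcon ⟨1, by omega⟩
    have hne : (⟨0, by omega⟩ : Fin (Module.finrank K W)) ≠ ⟨1, by omega⟩ := by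
      intro h
      simpa using congrArg Fin.val h
    have h4 : ∑ j ∈ ({⟨0, by omega⟩, ⟨1, by omega⟩} : Finset (Fin (Module.finrank K W))),
        (if j = ⟨0, by omega⟩ then y else -x) • C.res ⟨b j, hbO j⟩ = 0 := by
      rw [Finset.sum_pair hne, if_pos rfl, if_neg hne.symm, hx, hy, Algebra.smul_def,
        Algebra.smul_def, map_neg]
      ring
    have h5 := linearIndependent_iff'.mp hli _ _ h4 ⟨0, by omega⟩ (by simp)
    rw [if_pos rfl] at h5
    exact hli.ne_zero ⟨1, by omega⟩ (by rw [hy, h5, map_zero])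
  obtain ⟨x, y, hxy⟩ := Submodule.mem_span_pair.mp (hbW i)
  rw [Algebra.smul_def, Algebra.smul_def, mul_one] at hxy
  have hy : y ≠ 0 := by
    rintro rfl
    rw [map_zero, zero_mul, add_zero] at hxy
    have hx : x ∈ A := by
      rw [← gv_algebraMap_le_one_iff C hπ, hxy, C.O.valuation_le_one_iff]
      exact hbO i
    refine hi (π ⟨x, hx⟩) ?_
    rw [← C.res_algebraMap]
    congr 1
    exact Subtype.ext hxy.symm
  have hyF : algebraMap K F y ≠ 0 := by simpa using hy
  refine ⟨-x / y, y⁻¹, ⟨b i, hbO i⟩, inv_ne_zero hy, hi, ?_, hbW i⟩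
  change f = algebraMap K F (-x / y) + algebraMap K F y⁻¹ * b i
  rw [← hxy, map_inv₀, map_div₀, map_neg]
  field_simp
  ring

/-- A representation uniform in the constant case, for functions close to `1`. -/
theorem exists_rep_near (hπ : Function.Surjective π) {f : F} (hf : C.O.valuation (f - 1) < 1) :
    ∃ (a c : K) (e : C.O), C.O.valuation (algebraMap K F a) = 1 ∧ (c = 0 ∨ NC C e) ∧
      C.O.valuation (algebraMap K F c) < 1 ∧
      f = algebraMap K F a * (1 + algebraMap K F c * e) ∧
      (algebraMap K F c * (e : F)) ∈ Submodule.span K {1, f} := by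
  have h1 : C.O.valuation f = 1 := by
    have h2 : f = 1 + (f - 1) := by ring
    rw [h2]
    exact Valuation.map_one_add_of_lt _ hf
  rcases exists_rep C hπ f with ⟨a, rfl⟩ | ⟨a, c, e, hc, he, rfl, hspan⟩
  · refine ⟨a, 0, 0, h1, Or.inl rfl, by simp, by simp, by simp⟩
  · have hc1 : C.O.valuation (algebraMap K F c) < 1 := by
      refine lt_of_le_of_lt (he.le hπ (a - 1) c) ?_
      rw [map_sub, map_one]
      have h3 : algebraMap K F a - 1 + algebraMap K F c * (e : F) =
        algebraMap K F a + algebraMap K F c * (e : F) - 1 := by ring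
      rw [h3]
      exact hf
    have he1 := he.gv_eq_one hπ
    have ha1 : C.O.valuation (algebraMap K F a) = 1 := by
      have h3 : algebraMap K F a = (algebraMap K F a + algebraMap K F c * (e : F)) -
        algebraMap K F c * (e : F) := by ring
      rw [h3, Valuation.map_sub_eq_of_lt_left]
      · exact h1
      · rw [h1, map_mul, he1, mul_one]
        exact hc1
    have ha0 : algebraMap K F a ≠ 0 := by
      intro h0
      rw [h0, map_zero] at ha1
      exact zero_ne_one ha1
    refine ⟨a, c / a, e, ha1, Or.inr he, ?_, ?_, ?_⟩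
    · rw [map_div₀, map_div₀, ha1, div_one]
      exact hc1
    · rw [map_div₀]
      field_simp
    · have h4 : algebraMap K F (c / a) * (e : F) = (c / a) • (e : F) := by
        rw [Algebra.smul_def]
      rw [h4]
      exact Submodule.smul_mem _ _ hspan

/-- The distance to constants is attained. -/
theorem not_near (hπ : Function.Surjective π) {a c a' : K} {e : C.O} {δ : F} (he : NC C e)
    (ha : a ≠ 0) (hc : C.O.valuation (algebraMap K F c) < 1)
    (h : algebraMap K F a * (1 + algebraMap K F c * e) = algebraMap K F a' * (1 + δ))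
    (hδ : C.O.valuation δ < C.O.valuation (algebraMap K F c)) : False := by
  have haF : algebraMap K F a ≠ 0 := by simpa using ha
  have h1 : C.O.valuation (1 + algebraMap K F c * (e : F)) = 1 := by
    apply Valuation.map_one_add_of_lt
    rw [map_mul, he.gv_eq_one hπ, mul_one]
    exact hc
  have h2 : C.O.valuation (1 + δ) = 1 := Valuation.map_one_add_of_lt _ (hδ.trans hc)
  have h3 : C.O.valuation (algebraMap K F a) = C.O.valuation (algebraMap K F a') := by
    have := congrArg C.O.valuation h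
    rwa [map_mul, map_mul, h1, h2, mul_one, mul_one] at this
  have h4 := he.le hπ (a - a') (a * c)
  have h5 : algebraMap K F (a - a') + algebraMap K F (a * c) * (e : F) = algebraMap K F a' * δ := by
    rw [map_sub, map_mul]
    linear_combination h
  rw [h5, map_mul, map_mul, map_mul, ← h3] at h4
  have h6 : 0 < C.O.valuation (algebraMap K F a) :=
    zero_lt_iff.mpr ((Valuation.ne_zero_iff _).mpr haF)
  exact absurd hδ (not_lt.mpr (le_of_mul_le_mul_left h4 h6))

/-- Binomial expansion. -/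
theorem one_add_pow {p : ℕ} (hp : p.Prime) {b : K}
    (hb : algebraMap K F b ∈ C.O) (g : C.O) :
    ∃ δ : F, (1 + algebraMap K F b * g) ^ p =
        1 + algebraMap K F (b ^ p) * ((g ^ p : C.O) : F) + δ ∧
      C.O.valuation δ ≤ C.O.valuation (p : F) * C.O.valuation (algebraMap K F b) := by
  obtain ⟨r, hr⟩ := exists_add_pow_prime_eq hp (1 : C.O) (⟨_, hb⟩ * g)
  have hr' := congrArg (fun x : C.O => (x : F)) hr
  simp only [SubmonoidClass.coe_pow, AddMemClass.coe_add, OneMemClass.coe_one,
    MulMemClass.coe_mul, one_pow, mul_one] at hr'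
  refine ⟨(p : F) * (algebraMap K F b * (g : F)) * r, ?_, ?_⟩
  · rw [hr', map_pow, SubmonoidClass.coe_pow, mul_pow]
    push_cast
    ring
  · rw [map_mul, map_mul, map_mul]
    calc C.O.valuation (p : F) * (C.O.valuation (algebraMap K F b) * C.O.valuation (g : F)) *
          C.O.valuation (r : F)
        ≤ C.O.valuation (p : F) * (C.O.valuation (algebraMap K F b) * 1) * 1 := by
          gcongr
          · exact C.O.valuation_le_one g
          · exact C.O.valuation_le_one r
      _ = _ := by rw [mul_one, mul_one]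

theorem mul_lt_pow {Γ : Type*} [LinearOrderedCommGroupWithZero Γ] {p : ℕ} (hp : p.Prime)
    {x y z : Γ} (hz : z = x ^ (p - 1)) (hxy : x < y) : z * y < y ^ p := by
  have hy : 0 < y := lt_of_le_of_lt zero_le hxy
  have h1 : p = (p - 1) + 1 := (Nat.succ_pred_eq_of_pos hp.pos).symm
  rw [hz]
  conv_rhs => rw [h1, pow_succ]
  refine mul_lt_mul_of_pos_right ?_ hy
  exact pow_lt_pow_left₀ hxy zero_le (by have := hp.two_le; omega)

/-- **`T_p` lowers the distance to the constants.** -/
theorem lower [IsAlgClosed K] {p : ℕ} (hp : p.Prime) {ϖ : K}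
    (hϖ : C.O.valuation (p : F) = C.O.valuation (algebraMap K F ϖ) ^ (p - 1)) {c₀ c : K}
    (h1 : C.O.valuation (algebraMap K F ϖ) ^ p < C.O.valuation (algebraMap K F c₀))
    (h2 : C.O.valuation (algebraMap K F c₀) < 1)
    (hc : C.O.valuation (algebraMap K F c) ≤ C.O.valuation (algebraMap K F c₀)) (g : C.O)
    (hg : ∃ x, C.res g = x ^ p) :
    ∃ u δ : F, u ≠ 0 ∧ 1 + algebraMap K F c * g = u ^ p * (1 + δ) ∧
      C.O.valuation δ < C.O.valuation (algebraMap K F c₀) := by
  rcases hc.lt_or_eq with hlt | heq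
  · refine ⟨1, algebraMap K F c * g, one_ne_zero, by simp, ?_⟩
    rw [map_mul]
    exact lt_of_le_of_lt (mul_le_of_le_one_right' (C.O.valuation_le_one g)) hlt
  · obtain ⟨d, rfl⟩ := IsAlgClosed.exists_pow_nat_eq c hp.pos
    obtain ⟨x, hx⟩ := hg
    obtain ⟨h₁, rfl⟩ := C.res_surjective x
    have hdp : C.O.valuation (algebraMap K F (d ^ p)) = C.O.valuation (algebraMap K F d) ^ p := by
      rw [map_pow, map_pow]
    have hd1 : C.O.valuation (algebraMap K F d) < 1 := by
      rw [← heq, hdp] at h2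
      exact (pow_lt_one_iff_of_nonneg zero_le hp.ne_zero).mp h2
    have hdϖ : C.O.valuation (algebraMap K F ϖ) < C.O.valuation (algebraMap K F d) := by
      rw [← heq, hdp] at h1
      exact lt_of_pow_lt_pow_left₀ p zero_le h1
    have hdO : algebraMap K F d ∈ C.O := (C.O.valuation_le_one_iff _).mp hd1.le
    obtain ⟨δ₂, hδ₂, hδ₂'⟩ := one_add_pow C hp hdO h₁
    have hδ₂'' : C.O.valuation δ₂ < C.O.valuation (algebraMap K F (d ^ p)) := by
      refine lt_of_le_of_lt hδ₂' ?_
      rw [hdp]
      exact mul_lt_pow hp hϖ hdϖ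
    have hu1 : C.O.valuation (1 + algebraMap K F d * (h₁ : F)) = 1 := by
      apply Valuation.map_one_add_of_lt
      rw [map_mul]
      exact lt_of_le_of_lt (mul_le_of_le_one_right' (C.O.valuation_le_one h₁)) hd1
    have hu0 : (1 + algebraMap K F d * (h₁ : F)) ≠ 0 := by
      intro h0
      rw [h0, map_zero] at hu1
      exact zero_ne_one hu1
    have hup : C.O.valuation ((1 + algebraMap K F d * (h₁ : F)) ^ p) = 1 := by
      rw [map_pow, hu1, one_pow]
    refine ⟨_, (1 + algebraMap K F (d ^ p) * (g : F) - (1 + algebraMap K F d * (h₁ : F)) ^ p) /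
      (1 + algebraMap K F d * (h₁ : F)) ^ p, hu0, ?_, ?_⟩
    · field_simp
      ring
    · rw [map_div₀, hup, div_one, hδ₂, ← heq]
      have h3 : 1 + algebraMap K F (d ^ p) * (g : F) -
          (1 + algebraMap K F (d ^ p) * ((h₁ ^ p : C.O) : F) + δ₂) =
          algebraMap K F (d ^ p) * ((g - h₁ ^ p : C.O) : F) - δ₂ := by
        push_cast
        ring
      rw [h3]
      refine lt_of_le_of_lt (Valuation.map_sub _ _ _) (max_lt ?_ hδ₂'')
      rw [map_mul]
      have h4 : C.O.valuation ((g - h₁ ^ p : C.O) : F) < 1 := by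
        rw [gv_lt_one_iff, map_sub, map_pow, hx, sub_self]
      have h5 : 0 < C.O.valuation (algebraMap K F (d ^ p)) := by
        rw [heq]; exact lt_of_le_of_lt zero_le h1
      exact mul_lt_of_lt_one_right h5 h4

end Gauss

section Places

variable (C : ConstRed A π F F')

theorem sumPlaces_nsmul_apply {S : Finset (Place k F')} (p : ℕ) (Q : Place k F') :
    (p • sumPlaces S) Q = p * sumPlaces S Q := by
  rw [Finsupp.smul_apply, nsmul_eq_mul]

theorem mem_of_pow_mem {S : Finset (Place k F')} {p : ℕ} (hp : p ≠ 0) {x : F'}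
    (h : x ^ p ∈ riemannRochSpace (p • sumPlaces S)) : x ∈ riemannRochSpace (sumPlaces S) := by
  rw [mem_riemannRochSpace_iff] at h ⊢
  intro Q
  rcases eq_or_ne x 0 with hx | hx
  · exact Or.inl hx
  right
  have h1 := (h Q).resolve_left (pow_ne_zero p hx)
  rw [RR.ord_pow, sumPlaces_nsmul_apply] at h1
  have hp' : (0 : ℤ) < p := by exact_mod_cast Nat.pos_of_ne_zero hp
  nlinarith

variable [RR.FunctionField K F]

/-- The reduced representative: if `f ∈ L(p E₀)` is a `p`-th power up to a constant and up to a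
factor `1 + δ`, `|δ| < |c₀|`, then `f` is constant up to a factor `1 + δ'`, `|δ'| < |c₀|`. -/
theorem near_of_pow (hπ : Function.Surjective π)
    {r : Place K F → Place k F'} (hr : C.IsPlaceMap r) {p : ℕ} (hp : p.Prime) {ϖ : K}
    (hϖ : C.O.valuation (p : F) = C.O.valuation (algebraMap K F ϖ) ^ (p - 1)) {c₀ : K}
    (h1 : C.O.valuation (algebraMap K F ϖ) ^ p < C.O.valuation (algebraMap K F c₀))
    (h2 : C.O.valuation (algebraMap K F c₀) < 1)
    {S : Finset (Place k F')}
    (hS : Module.finrank k (riemannRochSpace (K := k) (F := F') (sumPlaces S)) = 1)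
    {E₀ : Divisor K F} (hE₀ : 0 ≤ E₀)
    (hE₀S : Finsupp.mapDomain r E₀ = sumPlaces S) {f u δ : F} {a₃ : K} (ha₃ : a₃ ≠ 0)
    (hu : u ≠ 0) (hfE : f ∈ riemannRochSpace (p • E₀))
    (hf : f = algebraMap K F a₃ * (u ^ p * (1 + δ)))
    (hδ : C.O.valuation δ < C.O.valuation (algebraMap K F c₀)) :
    ∃ (a : K) (δ' : F), a ≠ 0 ∧ f = algebraMap K F a * (1 + δ') ∧
      C.O.valuation δ' < C.O.valuation (algebraMap K F c₀) := by
  have hpS : Finsupp.mapDomain r (p • E₀) = p • sumPlaces S := by
    rw [← hE₀S, ← Finsupp.mapDomain.addMonoidHom_apply, map_nsmul]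
    rfl
  have hδ1 : C.O.valuation (1 + δ) = 1 := Valuation.map_one_add_of_lt _ (hδ.trans h2)
  have hδO : δ ∈ C.O := (C.O.valuation_le_one_iff _).mp (hδ.trans h2).le
  have hδres : C.res ⟨δ, hδO⟩ = 0 := (gv_lt_one_iff C _).mp (hδ.trans h2)
  -- membership in `L(p S)` of residues
  have key : ∀ (a b : K) (w : C.O), (w : F) = algebraMap K F a * f + algebraMap K F b →
      C.res w ∈ riemannRochSpace (p • sumPlaces S) := by
    intro a b w hw
    rw [← hpS]
    refine mem_of_red (C.placeRed hr) (w := (w : F)) ?_ ⟨w.2, rfl⟩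
    rw [hw, ← Algebra.smul_def, ← mul_one (algebraMap K F b), ← Algebra.smul_def]
    refine add_mem (Submodule.smul_mem _ _ hfE) (Submodule.smul_mem _ _ ?_)
    refine RR.one_mem_riemannRochSpace ?_
    exact nsmul_nonneg hE₀ p
  -- scale `u` to have norm one
  obtain ⟨c, hc, hcu⟩ := exists_gv_eq C hu
  have hcF : algebraMap K F c ≠ 0 := by simpa using hc
  set u₁ : F := u / algebraMap K F c with hu₁
  have hu₁v : C.O.valuation u₁ = 1 := by
    rw [hu₁, map_div₀, hcu]
    exact div_self ((Valuation.ne_zero_iff _).mpr hu)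
  have hu₁O : u₁ ∈ C.O := (C.O.valuation_le_one_iff _).mp hu₁v.le
  -- its residue is constant
  obtain ⟨b, hb⟩ : ∃ b : k, C.res ⟨u₁, hu₁O⟩ = algebraMap k F' b := by
    refine const_of_finrank_one (sumPlaces_nonneg S) hS (mem_of_pow_mem hp.ne_zero ?_)
    have h3 : C.res ⟨u₁, hu₁O⟩ ^ p = C.res (⟨u₁, hu₁O⟩ ^ p * (1 + ⟨δ, hδO⟩)) := by
      rw [map_mul, map_pow, map_add, hδres, map_one, add_zero, mul_one]
    rw [h3]
    refine key (a₃ * c ^ p)⁻¹ 0 _ ?_
    change u₁ ^ p * (1 + δ) = _
    rw [hf, hu₁, map_zero, add_zero, map_inv₀, map_mul, map_pow, div_pow]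
    have : algebraMap K F a₃ ≠ 0 := by simpa using ha₃
    field_simp
  have hb0 : b ≠ 0 := by
    rintro rfl
    rw [map_zero, ← gv_lt_one_iff] at hb
    exact hb.ne hu₁v
  obtain ⟨a₄, ha₄⟩ := hπ b
  have ha₄v : C.O.valuation (algebraMap K F (a₄ : K)) = 1 := by
    rw [show algebraMap K F (a₄ : K) = ((⟨_, C.algebraMap_mem a₄⟩ : C.O) : F) from rfl,
      gv_eq_one_iff, C.res_algebraMap, ha₄]
    simpa using hb0
  have ha₄0 : algebraMap K F (a₄ : K) ≠ 0 := by
    intro h0
    rw [h0, map_zero] at ha₄v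
    exact zero_ne_one ha₄v
  set u₂ : F := u₁ / algebraMap K F (a₄ : K) with hu₂
  have hu₂v : C.O.valuation (u₂ - 1) < 1 := by
    have h3 : u₂ - 1 = (u₁ - algebraMap K F (a₄ : K)) / algebraMap K F (a₄ : K) := by
      rw [hu₂]; field_simp
    rw [h3, map_div₀, ha₄v, div_one]
    have h4 := (gv_lt_one_iff C (⟨u₁, hu₁O⟩ - ⟨_, C.algebraMap_mem a₄⟩)).mpr (by
      rw [map_sub, hb, C.res_algebraMap, ha₄, sub_self])
    exact h4
  obtain ⟨a₅, b₂, g₂, ha₅, hg₂, hb₂, hu₂eq, -⟩ := exists_rep_near C hπ hu₂v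
  have ha₅0 : algebraMap K F a₅ ≠ 0 := by
    intro h0
    rw [h0, map_zero] at ha₅
    exact zero_ne_one ha₅
  have hb₂O : algebraMap K F b₂ ∈ C.O := (C.O.valuation_le_one_iff _).mp hb₂.le
  obtain ⟨δ₂, hδ₂, hδ₂'⟩ := one_add_pow C hp hb₂O g₂
  have hb₂p : C.O.valuation (algebraMap K F (b₂ ^ p)) = C.O.valuation (algebraMap K F b₂) ^ p := by
    rw [map_pow, map_pow]
  set a₆ : K := a₃ * (c * a₄ * a₅) ^ p with ha₆
  have ha₆0 : a₆ ≠ 0 := by
    have h4 : (a₄ : K) ≠ 0 := by intro h0; apply ha₄0; rw [h0, map_zero]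
    have h5 : a₅ ≠ 0 := by rintro rfl; exact ha₅0 (map_zero _)
    exact mul_ne_zero ha₃ (pow_ne_zero _ (mul_ne_zero (mul_ne_zero hc h4) h5))
  have hfa₆ : f = algebraMap K F a₆ * ((1 + algebraMap K F b₂ * g₂) ^ p * (1 + δ)) := by
    have h3 : u = algebraMap K F (c * a₄ * a₅) * (1 + algebraMap K F b₂ * (g₂ : F)) := by
      have h4 : u = algebraMap K F c * (algebraMap K F (a₄ : K) * u₂) := by
        rw [hu₂, hu₁]; field_simp
      rw [h4, hu₂eq, map_mul, map_mul]
      ring
    rw [hf, h3, ha₆, map_mul (algebraMap K F) a₃, map_pow, mul_pow]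
    ring
  have hg₂p : C.O.valuation ((g₂ ^ p : C.O) : F) ≤ 1 := C.O.valuation_le_one _
  have hγ0 : 0 < C.O.valuation (algebraMap K F c₀) := lt_of_le_of_lt zero_le h1
  rcases lt_or_ge (C.O.valuation (algebraMap K F b₂) ^ p) (C.O.valuation (algebraMap K F c₀))
    with hlt | hge
  · -- small case
    have hδ₂'' : C.O.valuation δ₂ < C.O.valuation (algebraMap K F c₀) := by
      refine lt_of_le_of_lt hδ₂' ?_
      rcases lt_or_ge (C.O.valuation (algebraMap K F ϖ)) (C.O.valuation (algebraMap K F b₂))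
        with h3 | h3
      · exact (mul_lt_pow hp hϖ h3).trans hlt
      · refine lt_of_le_of_lt (mul_le_mul' le_rfl h3) ?_
        rw [hϖ, ← pow_succ, Nat.sub_add_cancel hp.pos]
        exact h1
    refine ⟨a₆, (1 + algebraMap K F b₂ * (g₂ : F)) ^ p * (1 + δ) - 1, ha₆0, ?_, ?_⟩
    · rw [hfa₆]; ring
    · have h3 : (1 + algebraMap K F b₂ * (g₂ : F)) ^ p * (1 + δ) - 1 =
          (algebraMap K F (b₂ ^ p) * ((g₂ ^ p : C.O) : F) + δ₂) * (1 + δ) + δ := by
        rw [hδ₂]; ring
      rw [h3]
      refine Valuation.map_add_lt _ ?_ hδ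
      rw [map_mul, hδ1, mul_one]
      refine Valuation.map_add_lt _ ?_ hδ₂''
      rw [map_mul, hb₂p]
      exact lt_of_le_of_lt (mul_le_of_le_one_right' hg₂p) hlt
  · -- large case: impossible
    exfalso
    have hb₂0 : b₂ ≠ 0 := by
      rintro rfl
      rw [map_zero, map_zero, zero_pow hp.ne_zero] at hge
      exact absurd hγ0 (not_lt.mpr hge)
    have hNC := hg₂.resolve_left hb₂0
    have hb₂F : algebraMap K F b₂ ≠ 0 := by simpa using hb₂0
    have hb₂pF : algebraMap K F (b₂ ^ p) ≠ 0 := by rw [map_pow]; exact pow_ne_zero _ hb₂F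
    have hpos : 0 < C.O.valuation (algebraMap K F (b₂ ^ p)) :=
      zero_lt_iff.mpr ((Valuation.ne_zero_iff _).mpr hb₂pF)
    have h3 : C.O.valuation (algebraMap K F ϖ) < C.O.valuation (algebraMap K F b₂) :=
      lt_of_pow_lt_pow_left₀ p zero_le (lt_of_lt_of_le h1 hge)
    have hδ₂'' : C.O.valuation δ₂ < C.O.valuation (algebraMap K F (b₂ ^ p)) := by
      rw [hb₂p]
      exact lt_of_le_of_lt hδ₂' (mul_lt_pow hp hϖ h3)
    have hδ'' : C.O.valuation δ < C.O.valuation (algebraMap K F (b₂ ^ p)) := by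
      rw [hb₂p]; exact lt_of_lt_of_le hδ hge
    set η : F := (δ₂ * (1 + δ) + algebraMap K F (b₂ ^ p) * ((g₂ ^ p : C.O) : F) * δ + δ) /
      algebraMap K F (b₂ ^ p) with hη
    have hηv : C.O.valuation η < 1 := by
      rw [hη, map_div₀, div_lt_one₀ hpos]
      refine Valuation.map_add_lt _ (Valuation.map_add_lt _ ?_ ?_) hδ''
      · rw [map_mul, hδ1, mul_one]; exact hδ₂''
      · rw [map_mul, map_mul]
        refine lt_of_le_of_lt (mul_le_mul' (mul_le_of_le_one_right' hg₂p) le_rfl) ?_
        exact mul_lt_of_lt_one_right hpos (hδ.trans h2)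
    have hηO : η ∈ C.O := (C.O.valuation_le_one_iff _).mp hηv.le
    have hηres : C.res ⟨η, hηO⟩ = 0 := (gv_lt_one_iff C _).mp hηv
    obtain ⟨b', hb'⟩ := const_of_finrank_one (sumPlaces_nonneg S) hS
      (mem_of_pow_mem hp.ne_zero (x := C.res g₂) (by
        have h4 : C.res g₂ ^ p = C.res (g₂ ^ p + ⟨η, hηO⟩) := by
          rw [map_add, hηres, add_zero, map_pow]
        rw [h4]
        refine key (a₆ * b₂ ^ p)⁻¹ (-(b₂ ^ p)⁻¹) _ ?_
        change ((g₂ ^ p : C.O) : F) + η = _
        have ha₆F : algebraMap K F a₆ ≠ 0 := by simpa using ha₆0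
        rw [hfa₆, hη, map_neg, map_inv₀, map_inv₀, map_mul, hδ₂]
        field_simp
        ring))
    exact hNC b' hb'

end Places

end Fermat.Agent.Mazur.Ord
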