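import Fermat.Agent.Mazur.Ord.Near
import Fermat.Agent.RR.Corollaries

set_option autoImplicit false
set_option linter.unusedSectionVars false

/-!
# The ordinarity estimate (O1)

Let `W` be a finite family of classes of degree `0`, killed by `p`, reducing to `0`, with
`W ⊆ T W`, where `T` acts on functions `1 + c h` (`|c| < 1`) by `1 + c h ↦ 1 + c g` with `res g` a
`p`-th power (`T = T_p` on `X₀(N)`, `res g = (φ⁻¹ res h)^p`).  Then every class in `W` is the class of
`E - E₀` with `E`, `E₀` reducing to the same nonspecial divisor and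
`p (E - E₀) = div (1 + ϖ^p h)`, `h` integral, `ϖ^(p-1) = -p`.
-/

noncomputable section

open AlgebraicCurve WithZero Fermat.FF IntermediateField

namespace Fermat.Agent.Mazur.Ord

open Fermat.Agent.JRED

variable {K k : Type*} [Field K] [Field k] {A : ValuationSubring K} {π : A →+* k}
  {F F' : Type*} [Field F] [Field F'] [Algebra K F] [Algebra k F']
  [IsAlgClosed K] [IsAlgClosed k] [RR.FunctionField K F] [RR.FunctionField k F']

theorem mapDomain_add' (r : Place K F → Place k F') (D D' : Divisor K F) :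
    Finsupp.mapDomain r (D + D') = Finsupp.mapDomain r D + Finsupp.mapDomain r D' :=
  Finsupp.mapDomain_add

theorem mapDomain_sub' (r : Place K F → Place k F') (D D' : Divisor K F) :
    Finsupp.mapDomain r (D - D') = Finsupp.mapDomain r D - Finsupp.mapDomain r D' := by
  rw [← Finsupp.mapDomain.addMonoidHom_apply, map_sub]
  rfl

theorem mapDomain_nsmul' (r : Place K F → Place k F') (n : ℕ) (D : Divisor K F) :
    Finsupp.mapDomain r (n • D) = n • Finsupp.mapDomain r D := by
  rw [← Finsupp.mapDomain.addMonoidHom_apply, map_nsmul]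
  rfl

/-- Principal divisors reduce to principal divisors. -/
theorem isPrincipal_mapDomain {C : ConstRed A π F F'} {r : Place K F → Place k F'}
    (hr : C.IsPlaceMap r) {D : Divisor K F} (hD : Divisor.IsPrincipal D) :
    Divisor.IsPrincipal (Finsupp.mapDomain r D) := by
  obtain ⟨f, hf, rfl⟩ := RR.isPrincipal_iff.mp hD
  obtain ⟨c, hc, h, hne⟩ := C.exists_unit f hf
  refine ⟨C.res ⟨_, h⟩, hne, fun Q => ?_⟩
  refine hr ⟨_, h⟩ hne _ (fun P => ?_) Q
  rw [RR.divOf_apply]
  change P.ord f = P.ord (algebraMap K F c * f)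
  rw [← Algebra.smul_def, RR.ord_smul P hc]

/-- Classes of degree zero with trivial reduction are represented by `E - E₀` with `E ≥ 0`
reducing to the same nonspecial divisor as `E₀`. -/
theorem exists_reduced (C : ConstRed A π F F') {r : Place K F → Place k F'}
    (hr : C.IsPlaceMap r) {S : Finset (Place k F')} (hScard : S.card = genusFF K F)
    (hS : Module.finrank k (riemannRochSpace (K := k) (F := F') (sumPlaces S)) = 1)
    {E₀ : Divisor K F} (hE₀S : Finsupp.mapDomain r E₀ = sumPlaces S)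
    {D : Divisor K F} (hD : Divisor.degree D = 0)
    (hred : Divisor.IsPrincipal (Finsupp.mapDomain r D)) :
    ∃ E : Divisor K F, 0 ≤ E ∧ Finsupp.mapDomain r E = sumPlaces S ∧
      Divisor.IsPrincipal (D - (E - E₀)) := by
  have hdeg : Divisor.degree E₀ = genusFF K F := by
    rw [← degree_mapDomain r E₀, hE₀S, degree_sumPlaces, hScard]
  obtain ⟨w, hw, hE⟩ := RR.exists_effective (D := D + E₀) (by rw [map_add, hD, hdeg, zero_add])
  refine ⟨D + E₀ + RR.divOf w, hE, ?_, ?_⟩
  · have h1 : Divisor.IsPrincipal (Finsupp.mapDomain r (D + RR.divOf w)) := by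
      rw [mapDomain_add']
      exact (Divisor.principal (K := k) (F := F')).add_mem hred
        (isPrincipal_mapDomain hr (RR.isPrincipal_iff.mpr ⟨w, hw, rfl⟩))
    obtain ⟨v, hv, hvD⟩ := h1
    have h2 : D + E₀ + RR.divOf w = (D + RR.divOf w) + E₀ := by abel
    have h3 : ∀ Q, Finsupp.mapDomain r (D + E₀ + RR.divOf w) Q = Q.ord v + sumPlaces S Q := by
      intro Q
      rw [h2, mapDomain_add', Finsupp.add_apply, hvD, hE₀S]
    obtain ⟨c, hc⟩ := const_of_finrank_one (sumPlaces_nonneg S) hS (u := v) (by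
      rw [mem_riemannRochSpace_iff]
      intro Q
      right
      have h4 : 0 ≤ Finsupp.mapDomain r (D + E₀ + RR.divOf w) Q :=
        mapDomain_nonneg fun P _ => hE P
      rw [h3] at h4
      linarith)
    ext Q
    rw [h3, hc, RR.ord_algebraMap, zero_add]
  · have h1 : D - (D + E₀ + RR.divOf w - E₀) = - RR.divOf w := by abel
    rw [h1]
    exact (Divisor.principal (K := K) (F := F)).neg_mem
      (RR.isPrincipal_iff.mpr ⟨w, hw, rfl⟩)

/-- Normalised function with divisor `p (E - E₀)`. -/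
theorem exists_near_one (hπ : Function.Surjective π) (C : ConstRed A π F F')
    {r : Place K F → Place k F'} (hr : C.IsPlaceMap r) {D : Divisor K F}
    (hD : Divisor.IsPrincipal D) (hD0 : Finsupp.mapDomain r D = 0) :
    ∃ f : F, f ≠ 0 ∧ RR.divOf f = D ∧ C.O.valuation (f - 1) < 1 := by
  obtain ⟨f, hf, rfl⟩ := RR.isPrincipal_iff.mp hD
  obtain ⟨c, hc, h, hne⟩ := C.exists_unit f hf
  have hcf : ∀ P : Place K F, P.ord (algebraMap K F c * f) = P.ord f := fun P => by
    rw [← Algebra.smul_def, RR.ord_smul P hc]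
  have h1 : ∀ Q : Place k F', Q.ord (C.res ⟨_, h⟩) = 0 := by
    intro Q
    have h2 := hr ⟨_, h⟩ hne (RR.divOf f) (fun P => by rw [RR.divOf_apply]; exact (hcf P).symm) Q
    rw [hD0] at h2
    exact h2.symm
  obtain ⟨b, hb⟩ := RR.exists_const_of_forall_ord_nonneg (K := k) (f := C.res ⟨_, h⟩)
    (fun Q => (h1 Q).ge)
  obtain ⟨a, rfl⟩ := hπ b
  have ha0 : π a ≠ 0 := by
    intro h0
    rw [h0, map_zero] at hb
    exact hne hb
  have hav : C.O.valuation (algebraMap K F (a : K)) = 1 := by
    rw [show algebraMap K F (a : K) = ((⟨_, C.algebraMap_mem a⟩ : C.O) : F) from rfl,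
      gv_eq_one_iff, C.res_algebraMap]
    simpa using ha0
  have ha0F : algebraMap K F (a : K) ≠ 0 := by
    intro h0
    rw [h0, map_zero] at hav
    exact zero_ne_one hav
  have ha0' : (a : K) ≠ 0 := by
    intro h0
    exact ha0F (by rw [h0, map_zero])
  refine ⟨algebraMap K F (c / a) * f, mul_ne_zero (by simp [hc, ha0']) hf, ?_, ?_⟩
  · ext P
    rw [RR.divOf_apply, RR.divOf_apply, ← Algebra.smul_def, RR.ord_smul P (div_ne_zero hc ha0')]
  · have h3 : algebraMap K F (c / a) * f - 1 =
        (algebraMap K F c * f - algebraMap K F (a : K)) / algebraMap K F (a : K) := by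
      rw [map_div₀]; field_simp
    rw [h3, map_div₀, hav, div_one]
    exact (gv_lt_one_iff C (⟨_, h⟩ - ⟨_, C.algebraMap_mem a⟩)).mpr (by
      rw [map_sub, hb, C.res_algebraMap, sub_self])

/-- **(O1) The ordinarity estimate.** -/
theorem ordinary_estimate (hπ : Function.Surjective π) (C : ConstRed A π F F')
    {r : Place K F → Place k F'} (hr : C.IsPlaceMap r) {p : ℕ} (hp : p.Prime) {ϖ : K}
    (hp0 : (p : K) ≠ 0) (hϖ : ϖ ^ (p - 1) = -(p : K))
    (TD : Divisor K F →+ Divisor K F)
    (hTprin : ∀ D : Divisor K F, Divisor.IsPrincipal D → Divisor.IsPrincipal (TD D))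
    (hTD : ∀ (c : K) (h : C.O), C.O.valuation (algebraMap K F c) < 1 →
      ∃ g : C.O, (∃ x, C.res g = x ^ p) ∧
        TD (RR.divOf (1 + algebraMap K F c * h)) = RR.divOf (1 + algebraMap K F c * g))
    {ι : Type*} [Finite ι] (D : ι → Divisor K F) (hDdeg : ∀ i, Divisor.degree (D i) = 0)
    (hpD : ∀ i, Divisor.IsPrincipal (p • D i))
    (hred : ∀ i, Divisor.IsPrincipal (Finsupp.mapDomain r (D i)))
    (hT : ∀ i, ∃ j, Divisor.IsPrincipal (D i - TD (D j)))
    {S : Finset (Place k F')} (hScard : S.card = genusFF K F)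
    (hS : Module.finrank k (riemannRochSpace (K := k) (F := F') (sumPlaces S)) = 1)
    {E₀ : Divisor K F} (hE₀ : 0 ≤ E₀) (hE₀S : Finsupp.mapDomain r E₀ = sumPlaces S) (i : ι) :
    ∃ E : Divisor K F, 0 ≤ E ∧ Finsupp.mapDomain r E = sumPlaces S ∧
      Divisor.IsPrincipal (D i - (E - E₀)) ∧
      ∃ h : C.O, p • (E - E₀) = RR.divOf (1 + algebraMap K F (ϖ ^ p) * h) := by
  have hϖ0 : ϖ ≠ 0 := by
    rintro rfl
    apply hp0
    have h1 : p - 1 ≠ 0 := by have := hp.two_le; omega
    rw [zero_pow h1] at hϖ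
    exact neg_eq_zero.mp hϖ.symm
  have hϖv : C.O.valuation (p : F) = C.O.valuation (algebraMap K F ϖ) ^ (p - 1) := by
    rw [← map_pow, ← map_pow, hϖ, map_neg, map_natCast (algebraMap K F), Valuation.map_neg]
  choose E hE hES hDE using fun i => exists_reduced C hr hScard hS hE₀S (hDdeg i) (hred i)
  have hpE : ∀ i, Divisor.IsPrincipal (p • (E i - E₀)) := by
    intro i
    have h1 : p • (E i - E₀) = p • D i - p • (D i - (E i - E₀)) := by
      rw [← smul_sub]; congr 1; abel
    rw [h1]
    exact (Divisor.principal (K := K) (F := F)).sub_mem (hpD i)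
      ((Divisor.principal (K := K) (F := F)).nsmul_mem (hDE i) p)
  choose f hf0 hfD hf1 using fun i => exists_near_one hπ C hr (hpE i) (by
    rw [mapDomain_nsmul', mapDomain_sub', hES, hE₀S, sub_self, smul_zero])
  choose a c e ha1 hce hc1 hfeq _ using fun i => exists_rep_near C hπ (hf1 i)
  have ha0F : ∀ i, algebraMap K F (a i) ≠ 0 := fun i h0 => by
    have := ha1 i
    rw [h0, map_zero] at this
    exact zero_ne_one this
  have ha0 : ∀ i, a i ≠ 0 := fun i h0 => ha0F i (by rw [h0, map_zero])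
  have hdiv : ∀ i, RR.divOf (K := K) (1 + algebraMap K F (c i) * (e i : F)) = p • (E i - E₀) := by
    intro i
    rw [← hfD i]
    ext P
    rw [RR.divOf_apply, RR.divOf_apply, hfeq i, ← Algebra.smul_def (a i), RR.ord_smul P (ha0 i)]
  have hfL : ∀ i, f i ∈ riemannRochSpace (p • E₀) := by
    intro i
    rw [RR.mem_riemannRochSpace_of_ne_zero (hf0 i), hfD i, ← smul_add]
    refine nsmul_nonneg ?_ p
    have : E₀ + (E i - E₀) = E i := by abel
    rw [this]
    exact hE i
  -- the key bound
  have hbound : ∀ i, C.O.valuation (algebraMap K F (c i)) ≤ C.O.valuation (algebraMap K F (ϖ ^ p)) := by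
    by_contra hcon
    push Not at hcon
    obtain ⟨i₀, hi₀⟩ := hcon
    have : Nonempty ι := ⟨i₀⟩
    obtain ⟨m, hm⟩ := Finite.exists_max (fun i => C.O.valuation (algebraMap K F (c i)))
    have h1 : C.O.valuation (algebraMap K F ϖ) ^ p < C.O.valuation (algebraMap K F (c m)) := by
      rw [← map_pow, ← map_pow]
      exact lt_of_lt_of_le hi₀ (hm i₀)
    obtain ⟨j, hj⟩ := hT m
    obtain ⟨g, hg, hTg⟩ := hTD (c j) (e j) (hc1 j)
    obtain ⟨u, δ, hu, hug, hδ⟩ := lower C hp hϖv h1 (hc1 m) (hm j) g hg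
    have h2 : Divisor.IsPrincipal ((E m - E₀) - TD (E j - E₀)) := by
      have h3 : (E m - E₀) - TD (E j - E₀) =
          (D m - TD (D j)) - (D m - (E m - E₀)) + TD (D j - (E j - E₀)) := by
        rw [map_sub TD (D j)]; abel
      rw [h3]
      exact (Divisor.principal (K := K) (F := F)).add_mem
        ((Divisor.principal (K := K) (F := F)).sub_mem hj (hDE m)) (hTprin _ (hDE j))
    obtain ⟨u₂, hu₂, hu₂D⟩ := RR.isPrincipal_iff.mp h2
    have hg0 : (1 + algebraMap K F (c j) * (g : F)) ≠ 0 := by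
      have : C.O.valuation (1 + algebraMap K F (c j) * (g : F)) = 1 := by
        apply Valuation.map_one_add_of_lt
        rw [map_mul]
        exact lt_of_le_of_lt (mul_le_of_le_one_right' (C.O.valuation_le_one g)) (hc1 j)
      intro h0
      rw [h0, map_zero] at this
      exact zero_ne_one this
    have h3 : RR.divOf (K := K) (f m) =
        RR.divOf ((1 + algebraMap K F (c j) * (g : F)) * u₂ ^ p) := by
      rw [RR.divOf_mul hg0 (pow_ne_zero _ hu₂), ← hTg, hdiv j, hfD m, map_nsmul]
      have h4 : RR.divOf (K := K) (u₂ ^ p) = p • RR.divOf u₂ := by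
        ext P
        rw [RR.divOf_apply, RR.ord_pow, Finsupp.smul_apply, RR.divOf_apply, nsmul_eq_mul]
      rw [h4, ← hu₂D, ← smul_add]
      congr 1
      abel
    rw [RR.divOf_eq_iff (hf0 m) (mul_ne_zero hg0 (pow_ne_zero _ hu₂))] at h3
    obtain ⟨a₃, ha₃, hfm⟩ := h3
    obtain ⟨a', δ', ha', hfm', hδ'⟩ := near_of_pow C hπ hr hp hϖv h1 (hc1 m) hS hE₀ hE₀S
      (f := f m) (u := u * u₂) (δ := δ) ha₃ (mul_ne_zero hu hu₂) (hfL m) (by
        rw [hfm, Algebra.smul_def, hug]; ring) hδ
    have hcm : c m ≠ 0 := by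
      intro h0
      rw [h0, map_zero, map_zero] at h1
      exact absurd h1 (not_lt.mpr zero_le)
    exact not_near C hπ ((hce m).resolve_left hcm) (ha0 m) (hc1 m)
      ((hfeq m).symm.trans hfm') hδ'
  refine ⟨E i, hE i, hES i, hDE i, ?_⟩
  obtain ⟨h, hh⟩ := exists_eq_mul C (x := algebraMap K F (c i) * (e i : F))
    (c₀ := ϖ ^ p) (pow_ne_zero _ hϖ0) (by
      rw [map_mul]
      exact (mul_le_of_le_one_right' (C.O.valuation_le_one (e i))).trans (hbound i))
  exact ⟨h, by rw [← hdiv i, hh]⟩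

end Fermat.Agent.Mazur.Ord
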