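import Fermat.Agent.Mazur.Ord.Ordinary
import Fermat.Agent.Mazur.Weil.Eval

set_option autoImplicit false
set_option linter.unusedSectionVars false

/-!
# (O2): the Weil pairing of two classes as in (O1) is trivial

If `f = 1 + ϖ^p h` with `div f = p (E - E₀)` as in (O1), and `D' = E' - E₀'` with `E'`, `E₀'`
reducing to the same divisor, disjoint from the reduction of `E`, then
`f(D') = 1 + ϖ^p y` with `y` in the maximal ideal.  Hence `f(D') = f'(D)` as soon as the `p`-th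
powers agree (Weil reciprocity).
-/

noncomputable section

open AlgebraicCurve WithZero Fermat.FF IntermediateField

namespace Fermat.Agent.Mazur.Ord

open Fermat.Agent.JRED Fermat.Agent.Mazur.Weil

section Lam

variable {K k : Type*} [Field K] [Field k] {A : ValuationSubring K} (π : A →+* k)

/-- `x = 1 + t y`, `y` integral with reduction `lam`. -/
def IsLam (t x : K) (lam : k) : Prop := ∃ y : A, x = 1 + t * y ∧ π y = lam

variable {π} {t : K}

theorem IsLam.one : IsLam π t 1 0 := ⟨0, by simp, map_zero π⟩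

theorem IsLam.mul (ht : t ∈ A) (ht0 : π ⟨t, ht⟩ = 0) {x x' : K} {a a' : k} (h : IsLam π t x a)
    (h' : IsLam π t x' a') : IsLam π t (x * x') (a + a') := by
  obtain ⟨y, rfl, rfl⟩ := h
  obtain ⟨y', rfl, rfl⟩ := h'
  refine ⟨y + y' + ⟨t, ht⟩ * (y * y'), ?_, ?_⟩
  · push_cast
    ring
  · rw [map_add, map_add, map_mul, ht0, zero_mul, add_zero]

theorem IsLam.ne_zero (hπ : Function.Surjective π) (ht : t ∈ A) (ht0 : π ⟨t, ht⟩ = 0) {x : K} {a : k}
    (h : IsLam π t x a) : ∃ hx : x ∈ A, ∃ hx' : x⁻¹ ∈ A, x ≠ 0 ∧ π ⟨x, hx⟩ = 1 ∧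
      π ⟨x⁻¹, hx'⟩ = 1 := by
  obtain ⟨y, rfl, rfl⟩ := h
  have h1 : π (1 + ⟨t, ht⟩ * y) = 1 := by rw [map_add, map_mul, ht0, zero_mul, add_zero, map_one]
  obtain ⟨b, hb⟩ := isUnit_iff_exists_inv.mp (isUnit_of_res_ne_zero hπ (a := 1 + ⟨t, ht⟩ * y)
    (by rw [h1]; exact one_ne_zero))
  have hb' : (1 + t * (y : K)) * (b : K) = 1 := congrArg Subtype.val hb
  have hne : (1 + t * (y : K)) ≠ 0 := left_ne_zero_of_mul_eq_one hb'
  have hinv : (1 + t * (y : K))⁻¹ = b := inv_eq_of_mul_eq_one_right hb'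
  refine ⟨(1 + ⟨t, ht⟩ * y : A).2, by rw [hinv]; exact b.2, hne, h1, ?_⟩
  have h2 := congrArg π hb
  rw [map_mul, h1, one_mul, map_one] at h2
  rw [← h2]
  congr 1
  exact Subtype.ext hinv

theorem IsLam.inv (hπ : Function.Surjective π) (ht : t ∈ A) (ht0 : π ⟨t, ht⟩ = 0) {x : K} {a : k}
    (h : IsLam π t x a) : IsLam π t x⁻¹ (-a) := by
  obtain ⟨hx, hx', hx0, h1, h2⟩ := h.ne_zero hπ ht ht0
  obtain ⟨y, hy, rfl⟩ := h
  refine ⟨-(y * ⟨x⁻¹, hx'⟩), ?_, ?_⟩
  · have h3 : x⁻¹ * x = 1 := inv_mul_cancel₀ hx0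
    have h4 : x⁻¹ = 1 + t * -((y : K) * x⁻¹) := by
      have h5 : x⁻¹ * x = x⁻¹ * (1 + t * y) := by rw [← hy]
      linear_combination h3 - h5
    exact h4
  · rw [map_neg, map_mul, h2, mul_one]

theorem IsLam.zpow (hπ : Function.Surjective π) (ht : t ∈ A) (ht0 : π ⟨t, ht⟩ = 0) {x : K} {a : k}
    (h : IsLam π t x a) (n : ℤ) : IsLam π t (x ^ n) (n * a) := by
  have hnat : ∀ m : ℕ, IsLam π t (x ^ m) (m * a) := by
    intro m
    induction m with
    | zero => simpa using IsLam.one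
    | succ m ih =>
      rw [pow_succ, Nat.cast_succ, add_mul, one_mul]
      exact ih.mul ht ht0 h
  obtain ⟨m, rfl | rfl⟩ := n.eq_nat_or_neg
  · simpa using hnat m
  · have := (hnat m).inv hπ ht ht0
    simpa using this

theorem IsLam.prod (ht : t ∈ A) (ht0 : π ⟨t, ht⟩ = 0) {ι : Type*} {s : Finset ι} {x : ι → K}
    {a : ι → k} (h : ∀ i ∈ s, IsLam π t (x i) (a i)) :
    IsLam π t (∏ i ∈ s, x i) (∑ i ∈ s, a i) := by
  classical
  induction s using Finset.induction_on with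
  | empty => simpa using IsLam.one
  | insert i s hi ih =>
    rw [Finset.prod_insert hi, Finset.sum_insert hi]
    exact (h i (Finset.mem_insert_self i s)).mul ht ht0
      (ih fun j hj => h j (Finset.mem_insert_of_mem hj))

/-- A `p`-th root of unity `≡ 1` modulo `ϖ^p · 𝔪` is `1`. -/
theorem IsLam.eq_one {p : ℕ} (hp : p.Prime) {ϖ : K} (hp0 : (p : K) ≠ 0)
    (hϖ : ϖ ^ (p - 1) = -(p : K)) (hϖA : ϖ ∈ A) (hϖ0 : π ⟨ϖ, hϖA⟩ = 0) {x : K}
    (h : IsLam π (ϖ ^ p) x 0) (hx : x ^ p = 1) : x = 1 := by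
  obtain ⟨y, rfl, hy⟩ := h
  by_contra hne
  set δ : K := ϖ ^ p * y with hδ
  have hδ0 : δ ≠ 0 := fun h0 => hne (by rw [h0, add_zero])
  have hϖne : ϖ ≠ 0 := by
    rintro rfl
    apply hp0
    have h1 : p - 1 ≠ 0 := by have := hp.two_le; omega
    rw [zero_pow h1] at hϖ
    exact neg_eq_zero.mp hϖ.symm
  have hprim : IsPrimitiveRoot (1 + δ) p :=
    IsPrimitiveRoot.iff_orderOf.mpr (by
      have := Fact.mk hp
      exact orderOf_eq_prime hx hne)
  obtain ⟨n, hn⟩ : ∃ n, p = n + 1 := ⟨p - 1, (Nat.succ_pred_eq_of_pos hp.pos).symm⟩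
  have hn1 : n ≠ 0 := by have := hp.two_le; omega
  rw [hn] at hprim
  have h1 := hprim.prod_one_sub_pow_eq_order
  have hδA : δ ∈ A := mul_mem (pow_mem hϖA p) y.2
  have hxA : 1 + δ ∈ A := add_mem (one_mem A) hδA
  set x : A := ⟨1 + δ, hxA⟩ with hxdef
  have h2 : ∏ k ∈ Finset.range n, (1 - (1 + δ) ^ (k + 1)) =
      (-δ) ^ n * ((∏ k ∈ Finset.range n, ∑ i ∈ Finset.range (k + 1), x ^ i : A) : K) := by
    push_cast
    rw [← Finset.card_range n, ← Finset.prod_const, Finset.card_range, ← Finset.prod_mul_distrib]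
    refine Finset.prod_congr rfl fun k _ => ?_
    have h3 := mul_neg_geom_sum (1 + δ) (k + 1)
    rw [← h3]
    change _ = -δ * ∑ i ∈ Finset.range (k + 1), (1 + δ) ^ i
    ring
  rw [h2, hδ] at h1
  set U := (∏ k ∈ Finset.range n, ∑ i ∈ Finset.range (k + 1), x ^ i : A)
  have hpn : (p : K) = (n : K) + 1 := by rw [hn]; push_cast; ring
  have hϖn : ϖ ^ n = -(p : K) := by
    have : p - 1 = n := by omega
    rw [← this]; exact hϖ
  have h3 : (-(ϖ ^ p * (y : K))) ^ n = (-1) ^ n * (-(p : K)) ^ p * (y : K) ^ n := by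
    rw [neg_eq_neg_one_mul, mul_pow, mul_pow, ← pow_mul, mul_comm p n, pow_mul, hϖn]
    ring
  rw [h3, ← hpn] at h1
  have h4 : (1 : K) = ((-1) ^ n * (-1) ^ p * (p : A) ^ n * y ^ n * U : A) := by
    apply mul_left_cancel₀ hp0
    push_cast
    rw [mul_one]
    conv_lhs => rw [← h1]
    rw [neg_eq_neg_one_mul (p : K), mul_pow (-1 : K) (p : K) p]
    have h5 : (p : K) ^ p = p * (p : K) ^ n := by
      conv_lhs => rw [hn, pow_succ]
      rw [hn]
      ring
    rw [h5]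
    ring
  have h5 : (1 : A) = (-1) ^ n * (-1) ^ p * (p : A) ^ n * y ^ n * U := Subtype.ext h4
  have h6 := congrArg π h5
  rw [map_mul, map_mul, map_pow π y, hy, zero_pow hn1, mul_zero, zero_mul, map_one] at h6
  exact one_ne_zero h6

end Lam

section Curve

variable {K k : Type*} [Field K] [Field k] {A : ValuationSubring K} {π : A →+* k}
  {F F' : Type*} [Field F] [Field F'] [Algebra K F] [Algebra k F']
  [IsAlgClosed K] [IsAlgClosed k] [RR.FunctionField K F] [RR.FunctionField k F']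

theorem uniformizer_facts {π : A →+* k} {p : ℕ} (hp : p.Prime) [CharP k p] {ϖ : K}
    (hp0 : (p : K) ≠ 0) (hϖ : ϖ ^ (p - 1) = -(p : K)) :
    ϖ ≠ 0 ∧ ∃ hϖA : ϖ ∈ A, π ⟨ϖ, hϖA⟩ = 0 := by
  have h1 : p - 1 ≠ 0 := by have := hp.two_le; omega
  refine ⟨?_, ?_⟩
  · rintro rfl
    apply hp0
    rw [zero_pow h1] at hϖ
    exact neg_eq_zero.mp hϖ.symm
  · have hA : ϖ ∈ A := by
      rw [← A.valuation_le_one_iff, ← pow_le_one_iff_of_nonneg zero_le h1, ← map_pow, hϖ,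
        A.valuation_le_one_iff]
      exact neg_mem (natCast_mem A p)
    refine ⟨hA, ?_⟩
    have h2 : (⟨ϖ, hA⟩ : A) ^ (p - 1) = -(p : A) := by
      apply Subtype.ext
      push_cast
      exact hϖ
    have h3 := congrArg π h2
    rw [map_pow, map_neg, map_natCast, CharP.cast_eq_zero, neg_zero] at h3
    exact pow_eq_zero_iff h1 |>.mp h3

variable (C : ConstRed A π F F') {r : Place K F → Place k F'}

/-- Values of `1 + ϖ^p h` off the reduction of its divisor. -/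
theorem isLam_ev (hπ : Function.Surjective π) (hr : C.IsPlaceMap r) {p : ℕ} {t : K} (ht0 : t ≠ 0)
    {S : Divisor k F'} {E E₀ : Divisor K F} (hE : 0 ≤ E) (hE₀ : 0 ≤ E₀)
    (hE₀S : Finsupp.mapDomain r E₀ = S) {h : C.O}
    (hf : p • (E - E₀) = RR.divOf (1 + algebraMap K F t * h)) {P : Place K F}
    (hP : S (r P) = 0) :
    IsLam π t (ev P (1 + algebraMap K F t * (h : F))) (ev (r P) (C.res h)) := by
  have htF : algebraMap K F t ≠ 0 := by simpa using ht0
  have hreg : RegOn r (r P) (h : F) := by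
    intro P' hP'
    have h1 : E₀ P' = 0 := by
      have h2 := le_mapDomain (r := r) (D := E₀) (Q := r P') (fun P'' _ => hE₀ P'') rfl
      rw [hE₀S, hP', hP] at h2
      exact le_antisymm h2 (hE₀ P')
    have h2 : 0 ≤ P'.ord (1 + algebraMap K F t * (h : F)) := by
      rw [← RR.divOf_apply, ← hf, Finsupp.smul_apply, Finsupp.sub_apply, h1, sub_zero]
      exact nsmul_nonneg (hE P') p
    have h3 : (h : F) = algebraMap K F t⁻¹ * ((1 + algebraMap K F t * (h : F)) - 1) := by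
      rw [map_inv₀]; field_simp; ring
    rw [h3]
    exact mul_mem (P'.algebraMap_mem' _) (sub_mem (RR.mem_of_ord_nonneg P' h2) (one_mem _))
  have hmem : (h : F) ∈ P.toValuationSubring := hreg P rfl
  obtain ⟨hcA, hc⟩ := value_mem hπ (C.placeRed hr) (w := (h : F)) (u := C.res h) ⟨h.2, rfl⟩ hreg
    (val_sub_ev_lt_one hmem)
  have hres : C.res h ∈ (r P).toValuationSubring :=
    mem_of_regOn (C.placeRed hr) (w := (h : F)) ⟨h.2, rfl⟩ hreg
  refine ⟨⟨ev P (h : F), hcA⟩, ?_, ?_⟩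
  · rw [ev_add (one_mem _) (mul_mem (P.algebraMap_mem' _) hmem), ev_one,
      ev_mul (P.algebraMap_mem' _) hmem, ev_algebraMap]
  · exact ((ev_eq_iff hres _).mpr hc).symm

/-- `f(D') = 1 + ϖ^p y` with `y` in the maximal ideal. -/
theorem isLam_evalDiv (hπ : Function.Surjective π) (hr : C.IsPlaceMap r) {p : ℕ} {t : K}
    (ht0 : t ≠ 0) (ht : t ∈ A) (ht' : π ⟨t, ht⟩ = 0)
    {S : Divisor k F'} {E E₀ : Divisor K F} (hE : 0 ≤ E) (hE₀ : 0 ≤ E₀)
    (hE₀S : Finsupp.mapDomain r E₀ = S) {h : C.O}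
    (hf : p • (E - E₀) = RR.divOf (1 + algebraMap K F t * h)) {D' : Divisor K F}
    (hD' : Finsupp.mapDomain r D' = 0) (hdisj : ∀ P, D' P ≠ 0 → S (r P) = 0) :
    IsLam π t (evalDiv (1 + algebraMap K F t * (h : F)) D') 0 := by
  have h1 : IsLam π t (evalDiv (1 + algebraMap K F t * (h : F)) D')
      (∑ P ∈ D'.support, (D' P : k) * ev (r P) (C.res h)) := by
    rw [evalDiv, Finsupp.prod]
    refine IsLam.prod ht ht' fun P hP => ?_
    exact (isLam_ev C hπ hr ht0 hE hE₀ hE₀S hf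
      (hdisj P (Finsupp.mem_support_iff.mp hP))).zpow hπ ht ht' _
  have h2 : ∑ P ∈ D'.support, (D' P : k) * ev (r P) (C.res h) = 0 := by
    have h3 : (Finsupp.mapDomain r D').sum (fun Q n => (n : k) * ev Q (C.res h)) =
        D'.sum fun P n => (n : k) * ev (r P) (C.res h) :=
      Finsupp.sum_mapDomain_index (fun Q => by simp) (fun Q m n => by push_cast; ring)
    rw [hD', Finsupp.sum_zero_index] at h3
    exact h3.symm
  rwa [h2] at h1

/-- **(O2)** For two divisors as in (O1) with disjoint reductions the tame symbols agree. -/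
theorem evalDiv_eq_of_ordinary (hπ : Function.Surjective π) (hr : C.IsPlaceMap r) {p : ℕ}
    (hp : p.Prime) [CharP k p] {ϖ : K} (hp0 : (p : K) ≠ 0) (hϖ : ϖ ^ (p - 1) = -(p : K))
    {S S' : Divisor k F'} {E E₀ E' E₀' : Divisor K F} (hE : 0 ≤ E) (hE₀ : 0 ≤ E₀)
    (hE' : 0 ≤ E') (hE₀' : 0 ≤ E₀')
    (hES : Finsupp.mapDomain r E = S) (hE₀S : Finsupp.mapDomain r E₀ = S)
    (hES' : Finsupp.mapDomain r E' = S') (hE₀S' : Finsupp.mapDomain r E₀' = S')
    (hSS' : ∀ Q, S Q ≠ 0 → S' Q = 0) {h h' : C.O}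
    (hf : p • (E - E₀) = RR.divOf (1 + algebraMap K F (ϖ ^ p) * h))
    (hf' : p • (E' - E₀') = RR.divOf (1 + algebraMap K F (ϖ ^ p) * h'))
    (hrec : evalDiv (1 + algebraMap K F (ϖ ^ p) * (h : F)) (E' - E₀') ^ p =
      evalDiv (1 + algebraMap K F (ϖ ^ p) * (h' : F)) (E - E₀) ^ p) :
    evalDiv (1 + algebraMap K F (ϖ ^ p) * (h : F)) (E' - E₀') =
      evalDiv (1 + algebraMap K F (ϖ ^ p) * (h' : F)) (E - E₀) := by
  obtain ⟨hϖ0, hϖA, hϖπ⟩ := uniformizer_facts (A := A) (π := π) hp hp0 hϖ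
  have ht : ϖ ^ p ∈ A := pow_mem hϖA p
  have ht' : π ⟨ϖ ^ p, ht⟩ = 0 := by
    have : (⟨ϖ ^ p, ht⟩ : A) = ⟨ϖ, hϖA⟩ ^ p := rfl
    rw [this, map_pow, hϖπ, zero_pow hp.ne_zero]
  have hpos : ∀ (X : Divisor K F) (T : Divisor k F'), 0 ≤ X → Finsupp.mapDomain r X = T →
      ∀ P, X P ≠ 0 → T (r P) ≠ 0 := by
    intro X T hX hXT P hP h0
    have h1 := le_mapDomain (r := r) (D := X) (Q := r P) (fun P'' _ => hX P'') rfl
    rw [hXT, h0] at h1
    exact hP (le_antisymm h1 (hX P))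
  have hsub : ∀ (X Y : Divisor K F) (T : Divisor k F'), 0 ≤ X → 0 ≤ Y →
      Finsupp.mapDomain r X = T → Finsupp.mapDomain r Y = T → ∀ P, (X - Y) P ≠ 0 → T (r P) ≠ 0 := by
    intro X Y T hX hY hXT hYT P hP
    by_cases h1 : X P = 0
    · refine hpos Y T hY hYT P fun h2 => hP ?_
      rw [Finsupp.sub_apply, h1, h2, sub_zero]
    · exact hpos X T hX hXT P h1
  have h1 := isLam_evalDiv C hπ hr (pow_ne_zero p hϖ0) ht ht' hE hE₀ hE₀S hf (D' := E' - E₀')
    (by rw [mapDomain_sub', hES', hE₀S', sub_self]) (fun P hP => by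
      by_contra h0
      exact hsub E' E₀' S' hE' hE₀' hES' hE₀S' P hP (hSS' _ h0))
  have h2 := isLam_evalDiv C hπ hr (pow_ne_zero p hϖ0) ht ht' hE' hE₀' hE₀S' hf' (D' := E - E₀)
    (by rw [mapDomain_sub', hES, hE₀S, sub_self]) (fun P hP =>
      hSS' _ (hsub E E₀ S hE hE₀ hES hE₀S P hP))
  obtain ⟨_, _, hne, _⟩ := h2.ne_zero hπ ht ht'
  have h3 := h1.mul ht ht' (h2.inv hπ ht ht')
  rw [neg_zero, add_zero] at h3
  have h4 := h3.eq_one hp hp0 hϖ hϖA hϖπ (by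
    rw [mul_pow, hrec, ← mul_pow, mul_inv_cancel₀ hne, one_pow])
  exact (mul_inv_eq_one₀ hne).mp h4

end Curve

end Fermat.Agent.Mazur.Ord
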