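import Fermat.Agent.Mazur.Ord.Modular
import Fermat.Agent.Mazur.Weil.Pairing

set_option autoImplicit false
set_option linter.unusedSectionVars false
set_option linter.style.haveILetI false

/-!
# (O2): the Weil pairing is trivial on the kernel of reduction, for `T_ℓ`-ordinary subgroups
-/

noncomputable section

open AlgebraicCurve ModularCurve

namespace Fermat.Agent.Mazur.Ord

open Fermat.Agent.JRED Fermat.Agent.Mazur.Weil Fermat.Agent.JRED.ESFinal
  Fermat.Agent.JRED.ESGalois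

variable {N : ℕ} [NeZero N]

/-- **(O2)**: let `W` be a finite set of classes in `J₀(N)[ℓ]`, `ℓ ∤ N`, with trivial reduction at
`A ∣ ℓ` and `W ⊆ T_ℓ W`.  Then the Weil pairing `weil ℓ` is trivial on `W`. -/
theorem weil_eq_one_of_reduction {ℓ : ℕ} (hℓ : ℓ.Prime) (hℓN : ¬ ℓ ∣ N)
    (A : ValuationSubring (AlgebraicClosure ℚ)) (hA : A.LiesOverPrime ℓ)
    [RR.FunctionField (AlgebraicClosure ℚ) (modularFunctionFieldBar N)]
    (h : ReductionInputsModL A N)
    {W : Set (JZero N)} (hW : W.Finite) (hℓW : ∀ t ∈ W, ℓ • t = 0)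
    (hred : ∀ t ∈ W, reductionModL A N t = 0)
    (hTW : ∀ t ∈ W, ∃ s ∈ W, heckeOperatorBar N ⟨ℓ, hℓ⟩ s = t) {t t' : JZero N} (ht : t ∈ W)
    (ht' : t' ∈ W) : weil ℓ t t' = 1 := by
  obtain ⟨D, D', f, f', hf, hf', hD, hD', hfD, hfD', h1, h2, h3⟩ :=
    exists_tame_pair_modL hℓ hℓN A hA h hW hℓW hred hTW ht ht'
  have hpow : evalDiv f (D' : Divisor (AlgebraicClosure ℚ) (modularFunctionFieldBar N)) ^ ℓ =
      evalDiv f' (D : Divisor (AlgebraicClosure ℚ) (modularFunctionFieldBar N)) ^ ℓ := by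
    rw [← evalDiv_nsmul, ← evalDiv_nsmul, hfD, hfD']
    refine weil_reciprocity hf hf' ?_
    rw [← hfD']
    exact h1.nsmul ℓ
  have hdisj : ∀ P, (D : Divisor (AlgebraicClosure ℚ) (modularFunctionFieldBar N)) P ≠ 0 →
      (D' : Divisor (AlgebraicClosure ℚ) (modularFunctionFieldBar N)) P = 0 := by
    intro P hP
    by_contra h0
    have h4 := h1 P h0
    rw [← RR.divOf_apply (K := AlgebraicClosure ℚ), ← hfD, Finsupp.smul_apply,
      smul_eq_zero] at h4
    rcases h4 with h4 | h4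
    · exact hℓ.ne_zero h4
    · exact hP h4
  rw [weil_eq hf hf' hD hD' hfD hfD' hdisj, h3 hpow, div_self (evalDiv_ne_zero hf' h2)]

end Fermat.Agent.Mazur.Ord
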